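import Fermat.Agent.S56.Flat.Defs
import Fermat.Agent.S33.Val.Cyc

/-!
# S56 / FLAT / FR : `ρbar | D_p` reducible.  Definitions (owner helper8).   Briefing `S56-FLAT`, part FR.

* `om p σ : k` : the mod `p` cyclotomic character with values in `k`.
* `Aug p act U` : the augmentation subgroup `I_I U`.
* `PR1 p ζ f` (`f : ↥(Ip p) → ZMod p`): `f` is the Kummer cocycle of a UNIT: `∃ W, v W = 0, σ W = ζ ^ f σ * W` on inertia.
* `CEp`, `OTp`, `TRp` : the three inputs from block FL, as `Prop`s (hypotheses of all FR theorems).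
* `UT p r` : `r | D` upper triangular, `r | I = [[ω, *], [0, 1]]`.
* `ZZ p ζ r`, `LL p ζ r` : the good cocycles / classes.
* `conjRep g r0`, `pairAct`-form of the lift.
-/

set_option autoImplicit false

noncomputable section

namespace Fermat.Agent.S56.Flat.FR

open Fermat.Agent.S53 (M2)
open Fermat.Agent.S55 Fermat.Agent.S55.B Fermat.Agent.S05 ExtCitation Fermat.Agent.S56

variable (p : ℕ) [Fact p.Prime]

/-- the cyclotomic character as a natural number -/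
def omN (σ : GQ) : ℕ := ((cycloChar p σ : (ZMod p)ˣ) : ZMod p).val

/-- the cyclotomic character with values in `k` -/
def om {k : Type} [Field k] (σ : GQ) : k := (omN p σ : k)

/-- the augmentation subgroup -/
def Aug {V : Type} [AddCommGroup V] (act : GQ →* AddMonoid.End V) (U : AddSubgroup V) : AddSubgroup V :=
  AddSubgroup.closure {y | ∃ σ ∈ Ip p, ∃ u ∈ U, y = act σ u - u}

/-- `f` is the Kummer cocycle (on inertia) of a unit -/
def PR1 (ζ : Qb) (f : ↥(Ip p) → ZMod p) : Prop :=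
  ∃ W : Qb, (vp p).EQ W 0 ∧ ∀ σ : ↥(Ip p), (σ : GQ) W = ζ ^ (f σ).val * W

/-- input (CE) from FL -/
def CEp : Prop := ∀ (V : Type) [AddCommGroup V] (act : GQ →* AddMonoid.End V), IsFlatMod p V act →
  (∀ v : V, p • v = 0) → ∀ U : AddSubgroup V, (∀ σ ∈ Ip p, ∀ u ∈ U, act σ u ∈ U) →
    U ⊓ Aug p act ⊤ ≤ Aug p act U

/-- input (OT') from FL -/
def OTp : Prop := ∀ (V : Type) [AddCommGroup V] (act : GQ →* AddMonoid.End V), IsFlatMod p V act →
  (∀ v : V, p • v = 0) → ∀ (g : V) (κ : GQ → ZMod p), g ≠ 0 → (∀ σ ∈ Ip p, act σ g = (κ σ).val • g) →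
    (∀ σ ∈ Ip p, κ σ = 1) ∨ (∀ σ ∈ Ip p, κ σ = ((cycloChar p σ : (ZMod p)ˣ) : ZMod p))

/-- input (TR) from FL -/
def TRp : Prop := ∀ (V : Type) [AddCommGroup V] (act : GQ →* AddMonoid.End V), IsFlatMod p V act →
  (∀ v : V, p • v = 0) → ∀ (ζ : Qb), IsPrimitiveRoot ζ p → ∀ (g : V) (ℓ : V →+ ZMod p),
    (∀ σ ∈ Ip p, ∀ τ ∈ Ip p, act τ (act σ g - g) = omN p τ • (act σ g - g)) →
      PR1 p ζ (fun σ => ℓ (act (σ : GQ) g - g))

variable {k : Type} [Field k]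

/-- normal form of `r | D` -/
structure UT (r : GQ →* GL (Fin 2) k) : Prop where
  low : ∀ σ ∈ Dp p, (r σ : M2 k) 1 0 = 0
  om : ∀ σ ∈ Ip p, (r σ : M2 k) 0 0 = om p σ
  one : ∀ σ ∈ Ip p, (r σ : M2 k) 1 1 = 1

theorem Ip_le_Dp : Ip p ≤ Dp p := Iq_le_Dq (pPrime p)

/-- inertia into decomposition -/
def iD (σ : ↥(Ip p)) : ↥(Dp p) := ⟨σ, Ip_le_Dp p σ.2⟩

/-- the conjugate representation -/
def conjRep (g : GL (Fin 2) k) (r0 : GQ →* GL (Fin 2) k) : GQ →* GL (Fin 2) k :=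
  (MulAut.conj g).toMonoidHom.comp r0

theorem conjRep_apply (g : GL (Fin 2) k) (r0 : GQ →* GL (Fin 2) k) (σ : GQ) :
    conjRep g r0 σ = g * r0 σ * g⁻¹ := rfl

/-- `k²` -/
abbrev K2 (k : Type) : Type := Fin 2 → k

/-- `ρbar` is flat -/
def FlatRes (r0 : GQ →* GL (Fin 2) k) : Prop :=
  ∃ act : GQ →* AddMonoid.End (K2 k), (∀ σ v, act σ v = (r0 σ : M2 k).mulVec v) ∧ IsFlatMod p (K2 k) act

/-- the lift `(1 + ε c) r0` is flat; `k[ε]² = k² × k²`, `(v₀, v₁) = v₀ + ε v₁` -/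
def FlatLift (r0 : GQ →* GL (Fin 2) k) (c : GQ → Ad0 k) : Prop :=
  ∃ act : GQ →* AddMonoid.End (K2 k × K2 k),
    (∀ σ v, act σ v = ((r0 σ : M2 k).mulVec v.1,
      (r0 σ : M2 k).mulVec v.2 + ((c σ : M2 k) * (r0 σ : M2 k)).mulVec v.1)) ∧
    IsFlatMod p (K2 k × K2 k) act

end Fermat.Agent.S56.Flat.FR
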