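import Fermat.Agent.S56.Flat.FL.If
import Fermat.Agent.S56.Flat.FR.Defs

/-!
# S56 / FLAT / FR : the three inputs `CEp`, `OTp`, `TRp` are theorems (from block FL + FH)     (helper24)
-/

set_option autoImplicit false

noncomputable section

namespace Fermat.Agent.S56.Flat.FR

open Fermat.Agent.S55 Fermat.Agent.S55.B Fermat.Agent.S05 ExtCitation Fermat.Agent.S56

/-- finitely many algebra homs from a finite algebra to a domain -/
theorem finite_algHom_of_finite (R H L : Type*) [CommRing R] [CommRing H] [Algebra R H]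
    [Module.Finite R H] [CommRing L] [IsDomain L] [Algebra R L] : Finite (H →ₐ[R] L) := by
  classical
  obtain ⟨s, hs⟩ := (Module.finite_def (R := R) (M := H)).1 inferInstance
  have hint : ∀ h : H, IsIntegral R h := Algebra.IsIntegral.isIntegral
  choose P hPm hP using hint
  -- the finite set of possible values
  let T : (↥s) → Set L := fun h => {z | z ∈ ((P h.1).map (algebraMap R L)).roots}
  have hT : ∀ h, (T h).Finite := fun h => Multiset.finite_toSet _
  have hpi : (Set.pi Set.univ T).Finite := Set.Finite.pi fun h => hT h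
  let Φ : (H →ₐ[R] L) → (↥s → L) := fun f h => f h.1
  have hΦ : Function.Injective Φ := by
    intro f g hfg
    have h1 : f.toLinearMap = g.toLinearMap := by
      refine LinearMap.ext_on hs ?_
      intro x hx
      exact congrFun hfg ⟨x, hx⟩
    ext x
    exact congrArg (fun l : H →ₗ[R] L => l x) h1
  have hmem : ∀ f, Φ f ∈ Set.pi Set.univ T := by
    intro f h _
    show f h.1 ∈ ((P h.1).map (algebraMap R L)).roots
    rw [Polynomial.mem_roots ((hPm h.1).map _).ne_zero, Polynomial.IsRoot.def,
      Polynomial.eval_map, ← Polynomial.aeval_def, Polynomial.aeval_algHom_apply]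
    have : Polynomial.aeval h.1 (P h.1) = 0 := hP h.1
    rw [this, map_zero]
  have : Finite ↥(Set.pi Set.univ T) := hpi
  exact Finite.of_injective (fun f => (⟨Φ f, hmem f⟩ : ↥(Set.pi Set.univ T)))
    (fun f g h => hΦ (congrArg Subtype.val h))

variable {p : ℕ} [Fact p.Prime]

theorem finite_of_isFlatMod {V : Type} [AddCommGroup V] {act : GQ →* AddMonoid.End V}
    (h : IsFlatMod p V act) : Finite V := by
  obtain ⟨H, _, _, hfin, -, -, e, -, -⟩ := h
  have := finite_algHom_of_finite (GaloisRep.ratLocalizedAt p) H Qb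
  exact Finite.of_equiv _ ((WithConv.equiv _).symm.trans e)

theorem ce_p (hp2 : p ≠ 2) : CEp p := by
  intro V _ act h hpV U hU
  have := finite_of_isFlatMod h
  exact ce_flat h hp2 hpV U hU

theorem ot_p (hp2 : p ≠ 2) : OTp p := by
  intro V _ act h hpV g κ hg hκ
  have := finite_of_isFlatMod h
  exact ot_flat h hp2 hpV hg κ hκ

theorem tr_p : TRp p := by
  intro V _ act h _ ζ hζ g ℓ hg
  have := finite_of_isFlatMod h
  obtain ⟨y, hy, hy'⟩ := tr_flat h hζ g ℓ hg
  exact ⟨y, hy, fun σ => hy' σ σ.2⟩

end Fermat.Agent.S56.Flat.FR
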