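import Fermat.Agent.S56.Flat.FR.Hf

/-!
# S56 / FLAT / FR : the count  (R6)       key `S56/FR-COUNT`

`r` in normal form `UT`: on `D` `r = [[χ₁, β], [0, χ₂]]`, `ψ := χ₁/χ₂ : D → kˣ` (`ψ | I = ω`), `β' := β/χ₂`: a cocycle for `ψ` (`β' (σ τ) = ψ σ β' τ + β' σ`), of unit type on `I` by `hPR` (`χ₂ = 1` on `I`).
Adjoint action on upper triangular `X = [[x, y], [0, -x]]`: `r X r⁻¹ = [[x, ψ y - 2 β' x], [0, -x]]`.
For `c ∈ ZZ`: `c σ = [[a σ, b σ], [0, - a σ]]`, `a : D → k` additive, level constant, `a | I = 0`; `b (σ τ) = ψ σ b τ - 2 β' σ a τ + b σ`.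
 (A) `a φ = 0 ⟹ a = 0` (`φ` of `exists_fr`; `ProCyc.gen` for the open subgroup `ker a ⊇ I`).
 (B) `(Y, Θ)` from `hf`.   CASE 1: `β' = d y₀` is a coboundary (`β' σ = (ψ σ - 1) y₀` on `D`).  Then `h₀ := [[1, 2 y₀], [0, -1]]` is `D`-invariant, `x ↦ x h₀` injective: `#k ≤ #H0`.
     `b~ := b - 2 y₀ a` is a cocycle for `ψ`, `= b` on `I`.   `Ψ c := (a φ, Θ b~) ∈ k × Y`.   `Ψ c = Ψ c'` ⟹ `a = a'` by (A), `b~ - b~' = d y` so `c - c' = d0 [[0, y], [0, 0]]`: same class.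
     So `LL` is the image of a subset of `k × Y`: finite, `#LL ≤ #k * #Y ≤ #k * #k ≤ #k * #H0`.
     CASE 2: `β'` is not a coboundary.  `x ↦ Θ (x β')`, `k → Y` is injective (`Θ (x β') = Θ (x' β')` ⟹ `(x - x') β'` coboundary ⟹ `x = x'`), `#Y ≤ #k` finite ⟹ surjective.
     `Ψ c := a φ ∈ k`.   `a φ = a' φ` ⟹ `c'' := c - c' ∈ ZZ` has `a'' = 0`, `b''` is a cocycle for `ψ` of unit type; `Θ b'' = Θ (x β')` for some `x`; `b'' = x β' + d y`;
     `d0 [[-x/2, y], [0, x/2]] = [[0, x β' + d y], [0, 0]] = c''`.  So `#LL ≤ #k ≤ #k * #H0` (`#H0 ≥ 1`).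
 Counting pattern: `S := Ψ '' ZZ` finite; `S → LL`, `s ↦ [some c with Ψ c = s]` is onto (`Nat.card_le_card_of_surjective` / `Finite.of_surjective`).
-/

set_option autoImplicit false

noncomputable section

namespace Fermat.Agent.S56.Flat.FR

open Fermat.Agent.S53 (M2)
open Fermat.Agent.S55 Fermat.Agent.S55.B Fermat.Agent.S05 ExtCitation Fermat.Agent.S56

variable {p : ℕ} [Fact p.Prime] {k : Type} [Field k]

/-- counting pattern -/
theorem card_le_of_sep {Z X T : Type*} [AddCommGroup Z] [AddCommGroup X] [Finite T] (π : Z →+ X)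
    (S : AddSubgroup Z) (Ψ : Z → T) (h : ∀ z ∈ S, ∀ z' ∈ S, Ψ z = Ψ z' → π z = π z') :
    Finite (S.map π) ∧ Nat.card (S.map π) ≤ Nat.card T := by
  have hex : ∀ x : S.map π, ∃ z ∈ S, π z = x := fun x => x.2
  choose g hg1 hg2 using hex
  have hinj : Function.Injective (fun x => Ψ (g x)) := by
    intro x x' hxx
    apply Subtype.ext
    rw [← hg2 x, ← hg2 x']
    exact h _ (hg1 x) _ (hg1 x') hxx
  exact ⟨Finite.of_injective _ hinj, Nat.card_le_card_of_injective _ hinj⟩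

theorem ad_mul (g : GL (Fin 2) k) (X : Ad0 k) :
    ((adOne g X : Ad0 k) : M2 k) * (g : M2 k) = (g : M2 k) * (X : M2 k) := by
  rw [adOne_coe, mul_assoc, ← Units.val_mul, inv_mul_cancel, Units.val_one, mul_one]

theorem ad0_one_one (X : Ad0 k) : (X : M2 k) 1 1 = -(X : M2 k) 0 0 := by
  have h : (X : M2 k).trace = 0 := X.2
  rw [Matrix.trace_fin_two] at h
  linear_combination h

theorem ad0_ext {X Y : Ad0 k} (h00 : (X : M2 k) 0 0 = (Y : M2 k) 0 0) (h01 : (X : M2 k) 0 1 = (Y : M2 k) 0 1)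
    (h10 : (X : M2 k) 1 0 = (Y : M2 k) 1 0) : X = Y := by
  apply Subtype.ext
  ext i j
  fin_cases i <;> fin_cases j
  · exact h00
  · exact h01
  · exact h10
  · show (X : M2 k) 1 1 = (Y : M2 k) 1 1
    rw [ad0_one_one, ad0_one_one, h00]

/-- upper triangular trace zero matrices -/
def mkU (x y : k) : Ad0 k := ⟨!![x, y; 0, -x], by
  show (!![x, y; 0, -x] : M2 k).trace = 0
  simp [Matrix.trace_fin_two]⟩

@[simp] theorem mkU_00 (x y : k) : (mkU x y : M2 k) 0 0 = x := rfl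
@[simp] theorem mkU_01 (x y : k) : (mkU x y : M2 k) 0 1 = y := rfl
@[simp] theorem mkU_10 (x y : k) : (mkU x y : M2 k) 1 0 = 0 := rfl

/-- entries of the adjoint action of an upper triangular matrix on an upper triangular matrix -/
theorem ad_entries (g : GL (Fin 2) k) (hg : (g : M2 k) 1 0 = 0) (X : Ad0 k) (hX : (X : M2 k) 1 0 = 0) :
    (g : M2 k) 0 0 ≠ 0 ∧ (g : M2 k) 1 1 ≠ 0 ∧
    ((adOne g X : Ad0 k) : M2 k) 1 0 = 0 ∧ ((adOne g X : Ad0 k) : M2 k) 0 0 = (X : M2 k) 0 0 ∧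
    ((adOne g X : Ad0 k) : M2 k) 0 1 = (g : M2 k) 0 0 / (g : M2 k) 1 1 * (X : M2 k) 0 1 -
      2 * ((g : M2 k) 0 1 / (g : M2 k) 1 1) * (X : M2 k) 0 0 := by
  have hdet : (g : M2 k).det ≠ 0 := by
    have := Matrix.GeneralLinearGroup.det_ne_zero g
    exact this
  rw [Matrix.det_fin_two, hg, mul_zero, sub_zero] at hdet
  have h0 := left_ne_zero_of_mul hdet
  have h1 := right_ne_zero_of_mul hdet
  have h := ad_mul g X
  set Y := ((adOne g X : Ad0 k) : M2 k) with hY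
  have e10 := congrFun (congrFun h 1) 0
  have e00 := congrFun (congrFun h 0) 0
  have e01 := congrFun (congrFun h 0) 1
  simp only [Matrix.mul_apply, Fin.sum_univ_two, hg, hX, mul_zero, add_zero, zero_mul] at e10 e00 e01
  have hY10 : Y 1 0 = 0 := (mul_eq_zero.1 e10).resolve_right h0
  have hY00 : Y 0 0 = (X : M2 k) 0 0 := by
    have : Y 0 0 * (g : M2 k) 0 0 = (X : M2 k) 0 0 * (g : M2 k) 0 0 := by rw [e00]; ring
    exact mul_right_cancel₀ h0 this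
  refine ⟨h0, h1, hY10, hY00, ?_⟩
  rw [hY00, ad0_one_one X] at e01
  field_simp
  linear_combination e01


section UTsec

variable {r : GQ →* GL (Fin 2) k}

theorem ut_ne (hUT : UT p r) (σ : ↥(Dp p)) :
    (r (σ : GQ) : M2 k) 0 0 ≠ 0 ∧ (r (σ : GQ) : M2 k) 1 1 ≠ 0 :=
  ⟨(ad_entries (r σ) (hUT.low σ σ.2) 0 rfl).1, (ad_entries (r σ) (hUT.low σ σ.2) 0 rfl).2.1⟩

theorem ut_mul (hUT : UT p r) (σ τ : ↥(Dp p)) :
    (r ((σ * τ : ↥(Dp p)) : GQ) : M2 k) 0 0 = (r (σ : GQ) : M2 k) 0 0 * (r (τ : GQ) : M2 k) 0 0 ∧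
    (r ((σ * τ : ↥(Dp p)) : GQ) : M2 k) 1 1 = (r (σ : GQ) : M2 k) 1 1 * (r (τ : GQ) : M2 k) 1 1 ∧
    (r ((σ * τ : ↥(Dp p)) : GQ) : M2 k) 0 1 = (r (σ : GQ) : M2 k) 0 0 * (r (τ : GQ) : M2 k) 0 1 +
      (r (σ : GQ) : M2 k) 0 1 * (r (τ : GQ) : M2 k) 1 1 := by
  have h : (r ((σ * τ : ↥(Dp p)) : GQ) : M2 k) = (r (σ : GQ) : M2 k) * (r (τ : GQ) : M2 k) := by
    rw [Subgroup.coe_mul, map_mul, Units.val_mul]
  rw [h]
  simp only [Matrix.mul_apply, Fin.sum_univ_two, hUT.low σ σ.2, hUT.low τ τ.2, mul_zero, add_zero,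
    zero_mul, zero_add, and_self]

/-- `ψ = χ₁ / χ₂` -/
def psiU (hUT : UT p r) : ↥(Dp p) →* kˣ where
  toFun σ := Units.mk0 ((r (σ : GQ) : M2 k) 0 0 / (r (σ : GQ) : M2 k) 1 1)
    (div_ne_zero (ut_ne hUT σ).1 (ut_ne hUT σ).2)
  map_one' := by
    apply Units.ext
    simp
  map_mul' σ τ := by
    apply Units.ext
    rw [Units.val_mul, Units.val_mk0, Units.val_mk0, Units.val_mk0, (ut_mul hUT σ τ).1,
      (ut_mul hUT σ τ).2.1, mul_div_mul_comm]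

theorem psiU_coe (hUT : UT p r) (σ : ↥(Dp p)) :
    (psiU hUT σ : k) = (r (σ : GQ) : M2 k) 0 0 / (r (σ : GQ) : M2 k) 1 1 := rfl

theorem psiU_I (hUT : UT p r) (σ : ↥(Ip p)) : (psiU hUT (iD p σ) : k) = om p (σ : GQ) := by
  rw [psiU_coe]
  show (r (σ : GQ) : M2 k) 0 0 / (r (σ : GQ) : M2 k) 1 1 = _
  rw [hUT.om σ σ.2, hUT.one σ σ.2, div_one]

/-- `β' = β / χ₂` -/
def betaU (r : GQ →* GL (Fin 2) k) (σ : ↥(Dp p)) : k := (r (σ : GQ) : M2 k) 0 1 / (r (σ : GQ) : M2 k) 1 1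

theorem betaU_coc (hUT : UT p r) (σ τ : ↥(Dp p)) :
    betaU r (σ * τ) = (psiU hUT σ : k) * betaU r τ + betaU r σ := by
  have h1 := (ut_ne hUT σ).2
  have h2 := (ut_ne hUT τ).2
  rw [betaU, betaU, betaU, psiU_coe, (ut_mul hUT σ τ).2.1, (ut_mul hUT σ τ).2.2]
  field_simp

theorem betaU_I (hUT : UT p r) (σ : ↥(Ip p)) : betaU r (iD p σ) = (r (σ : GQ) : M2 k) 0 1 := by
  show (r (σ : GQ) : M2 k) 0 1 / (r (σ : GQ) : M2 k) 1 1 = _
  rw [hUT.one σ σ.2, div_one]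

/-- the adjoint action on upper triangular matrices -/
theorem adD_entries (hUT : UT p r) (σ : ↥(Dp p)) (X : Ad0 k) (hX : (X : M2 k) 1 0 = 0) :
    ((adRhoD r (pPrime p) σ X : Ad0 k) : M2 k) 1 0 = 0 ∧
    ((adRhoD r (pPrime p) σ X : Ad0 k) : M2 k) 0 0 = (X : M2 k) 0 0 ∧
    ((adRhoD r (pPrime p) σ X : Ad0 k) : M2 k) 0 1 = (psiU hUT σ : k) * (X : M2 k) 0 1 -
      2 * betaU r σ * (X : M2 k) 0 0 :=
  (ad_entries (r σ) (hUT.low σ σ.2) X hX).2.2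

theorem isZf_smul_betaU {ζ : Qb} (hUT : UT p r)
    (hPR : ∀ l : k →+ ZMod p, PR1 p ζ (fun σ => l ((r (σ : GQ) : M2 k) 0 1))) (x : k) :
    IsZf p ζ (psiU hUT) (fun σ => x * betaU r σ) := by
  refine ⟨fun σ τ => by dsimp only; rw [betaU_coc hUT]; ring, fun l => ?_⟩
  refine (hPR (l.comp (AddMonoidHom.mulLeft x))).congr fun σ => ?_
  dsimp only
  rw [betaU_I hUT]
  rfl


/-- local cocycles -/
abbrev ZD (p : ℕ) [Fact p.Prime] (r : GQ →* GL (Fin 2) k) : Type :=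
  ↥(Z1 (lvlD (pPrime p)) (adRhoD r (pPrime p)))

/-- diagonal entry -/
def aC (c : ZD p r) (σ : ↥(Dp p)) : k := ((c : ↥(Dp p) → Ad0 k) σ : M2 k) 0 0
/-- upper right entry -/
def bC (c : ZD p r) (σ : ↥(Dp p)) : k := ((c : ↥(Dp p) → Ad0 k) σ : M2 k) 0 1

theorem aC_sub (c c' : ZD p r) (σ : ↥(Dp p)) : aC (c - c') σ = aC c σ - aC c' σ := rfl
theorem bC_sub (c c' : ZD p r) (σ : ↥(Dp p)) : bC (c - c') σ = bC c σ - bC c' σ := rfl

variable {ζ : Qb} {hζ : ζ ^ p = 1}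

theorem aC_mul (hUT : UT p r) {c : ZD p r} (hc : c ∈ ZZ p ζ hζ r) (σ τ : ↥(Dp p)) :
    aC c (σ * τ) = aC c τ + aC c σ := by
  have h := congrArg (fun X : Ad0 k => (X : M2 k) 0 0) (c.2.2 σ τ)
  have h2 := (adD_entries hUT σ ((c : ↥(Dp p) → Ad0 k) τ) (hc.1 τ)).2.1
  simp only [AddSubgroup.coe_add, Matrix.add_apply] at h
  rw [h2] at h
  exact h

theorem bC_mul (hUT : UT p r) {c : ZD p r} (hc : c ∈ ZZ p ζ hζ r) (σ τ : ↥(Dp p)) :
    bC c (σ * τ) = (psiU hUT σ : k) * bC c τ - 2 * betaU r σ * aC c τ + bC c σ := by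
  have h := congrArg (fun X : Ad0 k => (X : M2 k) 0 1) (c.2.2 σ τ)
  have h2 := (adD_entries hUT σ ((c : ↥(Dp p) → Ad0 k) τ) (hc.1 τ)).2.2
  simp only [AddSubgroup.coe_add, Matrix.add_apply] at h
  rw [h2] at h
  exact h

theorem aC_eq_zero (hUT : UT p r) {c : ZD p r} (hc : c ∈ ZZ p ζ hζ r) {φ : ↥(Dp p)}
    (hpc : ProCyc (lvlD (pPrime p)) ((Ip p).subgroupOf (Dp p)) φ) (h : aC c φ = 0) (σ : ↥(Dp p)) :
    aC c σ = 0 := by
  have h1 : aC c 1 = 0 := by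
    have := aC_mul hUT hc 1 1
    rw [mul_one] at this
    exact left_eq_add.1 this
  let K : Subgroup ↥(Dp p) :=
    { carrier := {σ | aC c σ = 0}
      mul_mem' := fun {a b} (ha : aC c a = 0) (hb : aC c b = 0) => by
        show aC c (a * b) = 0
        rw [aC_mul hUT hc, ha, hb, add_zero]
      one_mem' := h1
      inv_mem' := fun {a} (ha : aC c a = 0) => by
        show aC c a⁻¹ = 0
        have := aC_mul hUT hc a⁻¹ a
        rw [inv_mul_cancel, h1, ha, zero_add] at this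
        exact this.symm }
  have hopen : (lvlD (pPrime p)).IsOpen K := by
    obtain ⟨U, hU, hc1⟩ := c.2.1
    refine ⟨U, hU, fun u hu => ?_⟩
    show aC c u = 0
    have := hc1 1 u hu
    rw [one_mul] at this
    rw [aC, this]
    exact h1
  have hI : (Ip p).subgroupOf (Dp p) ≤ K := fun i hi => hc.2.1 ⟨i, Subgroup.mem_subgroupOf.1 hi⟩
  obtain ⟨n, hn⟩ := hpc.gen K hopen hI σ
  have h2 : φ ^ n ∈ K := K.pow_mem h n
  have h3 := K.mul_mem h2 hn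
  rwa [mul_inv_cancel_left] at h3

theorem mk_eq_of_sub (c c' : ZD p r) (X : Ad0 k)
    (h : ∀ σ, (c : ↥(Dp p) → Ad0 k) σ - (c' : ↥(Dp p) → Ad0 k) σ = adRhoD r (pPrime p) σ X - X) :
    H1.mk (lvlD (pPrime p)) (adRhoD r (pPrime p)) c = H1.mk (lvlD (pPrime p)) (adRhoD r (pPrime p)) c' := by
  rw [← sub_eq_zero, ← map_sub, H1.mk_eq_zero_iff]
  exact ⟨(c - c').2.1, X, funext h⟩

/-- `c - c' = d0 (mkU x y)` from the entries -/
theorem mk_eq_of_entries (hUT : UT p r) {c c' : ZD p r} (hc : c ∈ ZZ p ζ hζ r) (hc' : c' ∈ ZZ p ζ hζ r)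
    (x y : k) (ha : ∀ σ, aC c σ = aC c' σ)
    (hb : ∀ σ, bC c σ - bC c' σ = ((psiU hUT σ : k) - 1) * y - 2 * betaU r σ * x) :
    H1.mk (lvlD (pPrime p)) (adRhoD r (pPrime p)) c = H1.mk (lvlD (pPrime p)) (adRhoD r (pPrime p)) c' := by
  refine mk_eq_of_sub c c' (mkU x y) fun σ => ?_
  obtain ⟨e10, e00, e01⟩ := adD_entries hUT σ (mkU x y) rfl
  refine ad0_ext ?_ ?_ ?_
  · show aC c σ - aC c' σ = ((adRhoD r (pPrime p) σ (mkU x y) : Ad0 k) : M2 k) 0 0 - (mkU x y : M2 k) 0 0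
    rw [e00, ha, sub_self, sub_self]
  · show bC c σ - bC c' σ = ((adRhoD r (pPrime p) σ (mkU x y) : Ad0 k) : M2 k) 0 1 - (mkU x y : M2 k) 0 1
    rw [e01, hb, mkU_00, mkU_01]
    ring
  · show ((c : ↥(Dp p) → Ad0 k) σ : M2 k) 1 0 - ((c' : ↥(Dp p) → Ad0 k) σ : M2 k) 1 0 =
      ((adRhoD r (pPrime p) σ (mkU x y) : Ad0 k) : M2 k) 1 0 - (mkU x y : M2 k) 1 0
    rw [e10, hc.1, hc'.1, mkU_10]

end UTsec


theorem count [Finite k] [CharP k p] (hp2 : p ≠ 2) {ζ : Qb} (hζ : IsPrimitiveRoot ζ p)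
    (r : GQ →* GL (Fin 2) k) (_hsm : IsSm r) (hUT : UT p r)
    (hPR : ∀ l : k →+ ZMod p, PR1 p ζ (fun σ => l ((r (σ : GQ) : M2 k) 0 1))) :
    Finite (LL p ζ hζ.pow_eq_one r) ∧
      Nat.card (LL p ζ hζ.pow_eq_one r) ≤ Nat.card k * Nat.card (H0 (adRhoD r (pPrime p))) := by
  classical
  obtain ⟨Y, hYfin, Θ, hYcard, hΘ⟩ := hf hp2 hζ (psiU hUT) (psiU_I hUT)
  obtain ⟨φ, -, hpc⟩ := exists_fr p
  have hpp : p.Prime := Fact.out
  have h2 : (2 : k) ≠ 0 := by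
    intro h
    have h3 : ((2 : ℕ) : k) = 0 := by exact_mod_cast h
    rw [CharP.cast_eq_zero_iff k p] at h3
    exact hp2 ((Nat.prime_dvd_prime_iff_eq hpp Nat.prime_two).1 h3)
  have : Finite (Ad0 k) := Subtype.finite
  have hsame : ∀ c ∈ ZZ p ζ hζ.pow_eq_one r, ∀ c' ∈ ZZ p ζ hζ.pow_eq_one r, aC c φ = aC c' φ →
      ∀ σ, aC c σ = aC c' σ := by
    intro c hc c' hc' h σ
    have h3 := aC_eq_zero hUT ((ZZ p ζ hζ.pow_eq_one r).sub_mem hc hc') hpc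
      (by rw [aC_sub, h, sub_self]) σ
    rw [aC_sub] at h3
    exact sub_eq_zero.1 h3
  by_cases hcob : ∃ y0 : k, ∀ σ, betaU r σ = ((psiU hUT σ : k) - 1) * y0
  · obtain ⟨y0, hy0⟩ := hcob
    have hH0 : Nat.card k ≤ Nat.card (H0 (adRhoD r (pPrime p))) := by
      refine Nat.card_le_card_of_injective
        (fun x : k => (⟨mkU x (2 * y0 * x), fun σ => ?_⟩ : H0 (adRhoD r (pPrime p)))) ?_
      · obtain ⟨e10, e00, e01⟩ := adD_entries hUT σ (mkU x (2 * y0 * x)) rfl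
        refine ad0_ext e00 ?_ e10
        rw [e01, mkU_00, mkU_01, hy0]
        ring
      · intro x x' h
        have := congrArg (fun X : H0 (adRhoD r (pPrime p)) => ((X : Ad0 k) : M2 k) 0 0) h
        exact this
    have hZf : ∀ c ∈ ZZ p ζ hζ.pow_eq_one r,
        IsZf p ζ (psiU hUT) (fun σ => bC c σ - 2 * y0 * aC c σ) := by
      intro c hc
      refine ⟨fun σ τ => ?_, fun l => (hc.2.2 l).congr fun σ => ?_⟩
      · dsimp only
        rw [bC_mul hUT hc, aC_mul hUT hc, hy0]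
        ring
      · dsimp only
        have : aC c (iD p σ) = 0 := hc.2.1 σ
        rw [this, mul_zero, sub_zero]
        rfl
    have key := card_le_of_sep (T := k × Y) (H1.mk (lvlD (pPrime p)) (adRhoD r (pPrime p)))
      (ZZ p ζ hζ.pow_eq_one r) (fun c => (aC c φ, Θ (fun σ => bC c σ - 2 * y0 * aC c σ))) ?_
    · refine ⟨key.1, key.2.trans ?_⟩
      rw [Nat.card_prod]
      exact Nat.mul_le_mul_left _ (hYcard.trans hH0)
    · intro c hc c' hc' hΨ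
      rw [Prod.mk.injEq] at hΨ
      have ha := hsame c hc c' hc' hΨ.1
      obtain ⟨y, hy⟩ := hΘ _ _ (hZf c hc) (hZf c' hc') hΨ.2
      refine mk_eq_of_entries hUT hc hc' 0 y ha fun σ => ?_
      have := hy σ
      rw [ha σ] at this
      linear_combination this
  · have hinj : Function.Injective (fun x : k => Θ (fun σ => x * betaU r σ)) := by
      intro x x' h
      by_contra hne
      obtain ⟨y, hy⟩ := hΘ _ _ (isZf_smul_betaU hUT hPR x) (isZf_smul_betaU hUT hPR x') h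
      apply hcob
      have hxx : x - x' ≠ 0 := sub_ne_zero.2 hne
      refine ⟨y / (x - x'), fun σ => ?_⟩
      have := hy σ
      field_simp
      linear_combination this
    have hbij := hinj.bijective_of_nat_card_le hYcard
    have key := card_le_of_sep (T := k) (H1.mk (lvlD (pPrime p)) (adRhoD r (pPrime p)))
      (ZZ p ζ hζ.pow_eq_one r) (fun c => aC c φ) ?_
    · exact ⟨key.1, key.2.trans (Nat.le_mul_of_pos_right _ Nat.card_pos)⟩
    · intro c hc c' hc' hΨ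
      have ha := hsame c hc c' hc' hΨ
      have hc'' := (ZZ p ζ hζ.pow_eq_one r).sub_mem hc hc'
      have hZf : IsZf p ζ (psiU hUT) (bC (c - c')) := by
        refine ⟨fun σ τ => ?_, hc''.2.2⟩
        rw [bC_mul hUT hc'', aC_sub, ha τ, sub_self, mul_zero, sub_zero]
      obtain ⟨x, hx⟩ := hbij.2 (Θ (bC (c - c')))
      obtain ⟨y, hy⟩ := hΘ _ _ (isZf_smul_betaU hUT hPR x) hZf hx
      refine mk_eq_of_entries hUT hc hc' (-x / 2) (-y) ha fun σ => ?_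
      have := hy σ
      rw [bC_sub] at this
      field_simp
      linear_combination -this

end Fermat.Agent.S56.Flat.FR
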