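import Fermat.Agent.S56.Flat.FR.PR
import Fermat.Agent.S55.Coh.LES

/-!
# S56 / FLAT / FR : normal form of a flat cocycle  (R4), (R5)       key `S56/FR-NF1`

`r` in normal form `UT`: on `D` `r = [[χ₁, β], [0, χ₂]]`, on `I` `r = [[ω, β], [0, 1]]`.  `c` a global cocycle with flat lift; `V = K2 k × K2 k` (`(v₀, v₁) = v₀ + ε v₁`),
`act σ (v₀, v₁) = (r v₀, r v₁ + c r v₀)`.  `A := Aug p act ⊤`.  `cᵢⱼ := (c σ) i j`.
 (i)   `U := {(0, v₁)}` is `I`-stable, `Aug U ⊆ {(0, (y, 0))}` (closure induction: `(r σ - 1) v₁ = ((ω - 1) v₁ 0 + β v₁ 1, 0)`).  `CEp`: (★) `(0, v₁) ∈ A ⟹ v₁ 1 = 0`.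
 (ii)  `A` is stable under `x • _` (`x : k`) and under `act τ`, `τ ∈ D` (`act τ (act σ u - u) = act (τ σ τ⁻¹) (act τ u) - act τ u`, `I` normal in `D`): closure induction.
 (iii) `σ₀ ∈ I`, `ω₀ := ω σ₀ ≠ 1` (`S33.exists_moves`).  `f₁ := (ω₀ - 1)⁻¹ • (act σ₀ (e₁, 0) - (e₁, 0)) = (e₁, (s, x)) ∈ A`, `x := ω₀ (ω₀ - 1)⁻¹ c₁₀(σ₀)`.
 (iv)  `τ ∈ D`: `act τ f₁ - χ₁ τ • f₁ = (0, w) ∈ A`, `w 1 = χ₂ x + χ₁ c₁₀(τ) - χ₁ x`; (★): `c₁₀(τ) = x (1 - χ₂/χ₁)`.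
 (v)   `X₀ := [[0,0],[x,0]] ∈ Ad0 k`, `c' := c|D + d0 X₀`.  `(r X₀ r⁻¹)₁₀ = x χ₂/χ₁`, so `c'₁₀ = 0` on `D`.
 (vi)  `σ ∈ I`: `act σ (e₂, 0) - (e₂, 0) - β σ • f₁ = (0, w) ∈ A`, `w 1 = β c₁₀ + c₁₁ - β x`; (★): `c₁₁(σ) = β x / ω`; `(r X₀ r⁻¹)₁₁ = - β x / ω`; so `c'₁₁ = 0 = c'₀₀` on `I` (trace zero).
 (vii) `TRp` with `g := (e₂, 0)`, `ℓ (v₀, v₁) := l (v₁ 0)`: `act σ g - g = (β e₁, (β c₀₀ + c₀₁, β c₁₀ + c₁₁)) = (β e₁, (b', β x))` with `b' = c₀₁ - β² x / ω = c'₀₁`; `τ ∈ I` acts on it by `ω τ`: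
       `act τ (e₁, (0, x)) = ω τ • (e₁, (0, x))` (by (iv), (vi)) and `act τ (0, e₁) = ω τ • (0, e₁)`.
 (viii) `loc1 [c] = [c|D] = [c']` (`d0 X₀ ∈ B1`: `LC1_d0`, smoothness of `adRhoD r` from `IsSm r`) and `c' ∈ ZZ`.
-/

set_option autoImplicit false

noncomputable section

namespace Fermat.Agent.S56.Flat.FR

open Fermat.Agent.S53 (M2)
open Fermat.Agent.S55 Fermat.Agent.S55.B Fermat.Agent.S05 ExtCitation Fermat.Agent.S56

variable {p : ℕ} [Fact p.Prime] {k : Type} [Field k]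

theorem nf1_conj_mem {τ σ : GQ} (hτ : τ ∈ Dp p) (hσ : σ ∈ Ip p) : τ * σ * τ⁻¹ ∈ Ip p := by
  refine mem_Iq_of_GT (pPrime p)
    ((Dp p).mul_mem ((Dp p).mul_mem hτ (Ip_le_Dp p hσ)) ((Dp p).inv_mem hτ)) fun x hx => ?_
  have hy : (vp p).GE (τ⁻¹ x) 0 := (pres_Dq (pPrime p)).GE ((Dp p).inv_mem hτ) hx
  have h1 := (pres_Dq (pPrime p)).GT hτ (GT_of_mem_Iq (pPrime p) hσ hy)
  rw [map_sub, apply_inv_apply] at h1
  exact h1

section aug

variable {V : Type} [AddCommGroup V] {act : GQ →* AddMonoid.End V}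

theorem nf1_sub_mem {σ : GQ} (hσ : σ ∈ Ip p) (u : V) : act σ u - u ∈ Aug p act ⊤ :=
  AddSubgroup.subset_closure ⟨σ, hσ, u, trivial, rfl⟩

theorem nf1_map_mem (φ : V →+ V) (hφ : ∀ σ ∈ Ip p, ∃ σ' ∈ Ip p, ∀ u, φ (act σ u) = act σ' (φ u)) {v : V}
    (hv : v ∈ Aug p act ⊤) : φ v ∈ Aug p act ⊤ := by
  induction hv using AddSubgroup.closure_induction with
  | mem y hy =>
    obtain ⟨σ, hσ, u, -, rfl⟩ := hy
    obtain ⟨σ', hσ', h⟩ := hφ σ hσ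
    rw [map_sub, h]
    exact nf1_sub_mem hσ' _
  | zero => rw [map_zero]; exact zero_mem _
  | add a b _ _ ha hb => rw [map_add]; exact add_mem ha hb
  | neg a _ ha => rw [map_neg]; exact neg_mem ha

theorem nf1_act_mem {τ : GQ} (hτ : τ ∈ Dp p) {v : V} (hv : v ∈ Aug p act ⊤) :
    act τ v ∈ Aug p act ⊤ := by
  refine nf1_map_mem (act τ) (fun σ hσ => ⟨τ * σ * τ⁻¹, nf1_conj_mem hτ hσ, fun u => ?_⟩) hv
  show (act τ * act σ) u = (act (τ * σ * τ⁻¹) * act τ) u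
  rw [← map_mul, ← map_mul, inv_mul_cancel_right]

end aug

theorem nf1_ext {v w : K2 k × K2 k} (h1 : v.1 0 = w.1 0) (h2 : v.1 1 = w.1 1) (h3 : v.2 0 = w.2 0)
    (h4 : v.2 1 = w.2 1) : v = w :=
  Prod.ext (funext (Fin.forall_fin_two.2 ⟨h1, h2⟩)) (funext (Fin.forall_fin_two.2 ⟨h3, h4⟩))

theorem nf1_exists_om_ne [CharP k p] (hp2 : p ≠ 2) : ∃ σ₀ ∈ Ip p, (om p σ₀ : k) ≠ 1 := by
  have hp : p.Prime := Fact.out
  obtain ⟨σ₀, hσ₀, z, hz, hne⟩ := S33.exists_moves (pPrime p) hp2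
  refine ⟨σ₀, hσ₀, fun h => hne ?_⟩
  have h1 : ((omN p σ₀ : ℕ) : k) = ((1 : ℕ) : k) := by rw [Nat.cast_one]; exact h
  have h2 := (CharP.natCast_eq_natCast k p).1 h1
  have h3 : omN p σ₀ = 1 := Nat.ModEq.eq_of_lt_of_lt h2 (ZMod.val_lt _) hp.one_lt
  have h4 := E.cycloChar_spec p σ₀ hz
  change σ₀ z = z ^ omN p σ₀ at h4
  rw [h4, h3, pow_one]

theorem nf1_smooth (r : GQ →* GL (Fin 2) k) (hsm : IsSm r) :
    Smooth (lvlD (pPrime p)) (adRhoD r (pPrime p)) := by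
  obtain ⟨U, hU, h⟩ := hsm
  refine fun a => ⟨U.comap (Dq (pPrime p)).subtype, ⟨U, hU, rfl⟩, fun u hu => ?_⟩
  apply Subtype.ext
  show ((r (u : GQ) : GL (Fin 2) k) : M2 k) * a.1 * (((r (u : GQ))⁻¹ : GL (Fin 2) k) : M2 k) = a.1
  have h1 : r (u : GQ) = 1 := h _ hu
  rw [h1]
  simp

set_option maxHeartbeats 3200000 in
theorem nf1 [CharP k p] (hCE : CEp p) (hTR : TRp p) (hp2 : p ≠ 2) {ζ : Qb} (hζ : IsPrimitiveRoot ζ p)
    (r : GQ →* GL (Fin 2) k) (hsm : IsSm r) (hUT : UT p r) (c : ↥(Z1 lvlQ (adRho r)))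
    (hfl : FlatLift p r c) :
    loc1 (adRho r) (pPrime p) (H1.mk lvlQ (adRho r) c) ∈ LL p ζ hζ.pow_eq_one r := by
  obtain ⟨act, hact, hflat⟩ := hfl
  set R : GQ → M2 k := fun σ => (r σ : M2 k) with hR
  set C : GQ → M2 k := fun σ => ((c : GQ → Ad0 k) σ : M2 k) with hC
  have htr : ∀ σ, C σ 0 0 + C σ 1 1 = 0 := fun σ => by
    have := ((c : GQ → Ad0 k) σ).2
    rw [mem_M0, Matrix.trace_fin_two] at this
    exact this
  have a10 : ∀ σ v, (act σ v).1 0 = R σ 0 0 * v.1 0 + R σ 0 1 * v.1 1 := fun σ v => by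
    rw [hact]; simp [Matrix.mulVec, dotProduct, Fin.sum_univ_two, hR]
  have a11 : ∀ σ v, (act σ v).1 1 = R σ 1 0 * v.1 0 + R σ 1 1 * v.1 1 := fun σ v => by
    rw [hact]; simp [Matrix.mulVec, dotProduct, Fin.sum_univ_two, hR]
  have a20 : ∀ σ v, (act σ v).2 0 = R σ 0 0 * v.2 0 + R σ 0 1 * v.2 1 +
      ((C σ 0 0 * R σ 0 0 + C σ 0 1 * R σ 1 0) * v.1 0 +
        (C σ 0 0 * R σ 0 1 + C σ 0 1 * R σ 1 1) * v.1 1) := fun σ v => by
    rw [hact]; simp [Fin.sum_univ_two, Matrix.mul_apply, hR, hC]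
  have a21 : ∀ σ v, (act σ v).2 1 = R σ 1 0 * v.2 0 + R σ 1 1 * v.2 1 +
      ((C σ 1 0 * R σ 0 0 + C σ 1 1 * R σ 1 0) * v.1 0 +
        (C σ 1 0 * R σ 0 1 + C σ 1 1 * R σ 1 1) * v.1 1) := fun σ v => by
    rw [hact]; simp [Fin.sum_univ_two, Matrix.mul_apply, hR, hC]
  have hlow : ∀ σ ∈ Dp p, R σ 1 0 = 0 := hUT.low
  have hom : ∀ σ ∈ Ip p, R σ 0 0 = om p σ := hUT.om
  have hone : ∀ σ ∈ Ip p, R σ 1 1 = 1 := hUT.one
  have hpV : ∀ v : K2 k × K2 k, p • v = 0 := fun v => by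
    rw [← Nat.cast_smul_eq_nsmul k, CharP.cast_eq_zero, zero_smul]
  have hsmul : ∀ (x : k) (σ : GQ) (v : K2 k × K2 k), act σ (x • v) = x • act σ v := fun x σ v => by
    apply nf1_ext
    · rw [a10]; simp only [Prod.smul_fst, Pi.smul_apply, smul_eq_mul, a10]; ring
    · rw [a11]; simp only [Prod.smul_fst, Pi.smul_apply, smul_eq_mul, a11]; ring
    · rw [a20]; simp only [Prod.smul_fst, Prod.smul_snd, Pi.smul_apply, smul_eq_mul, a20]; ring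
    · rw [a21]; simp only [Prod.smul_fst, Prod.smul_snd, Pi.smul_apply, smul_eq_mul, a21]; ring
  have hsm_mem : ∀ (x : k) (v : K2 k × K2 k), v ∈ Aug p act ⊤ → x • v ∈ Aug p act ⊤ := fun x v hv =>
    nf1_map_mem (DistribSMul.toAddMonoidHom (K2 k × K2 k) x)
      (fun σ hσ => ⟨σ, hσ, fun u => (hsmul x σ u).symm⟩) hv
  -- (★)
  have star : ∀ v ∈ Aug p act ⊤, v.1 0 = 0 → v.1 1 = 0 → v.2 1 = 0 := by
    intro v hv h0 h1
    let U : AddSubgroup (K2 k × K2 k) := (AddMonoidHom.fst (K2 k) (K2 k)).ker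
    have hU : ∀ u, u ∈ U ↔ u.1 = 0 := fun u => AddMonoidHom.mem_ker
    let T : AddSubgroup (K2 k × K2 k) :=
      ((Pi.evalAddMonoidHom (fun _ : Fin 2 => k) 1).comp (AddMonoidHom.snd (K2 k) (K2 k))).ker
    have hT : ∀ u, u ∈ T ↔ u.2 1 = 0 := fun u => AddMonoidHom.mem_ker
    have h2 := hCE _ act hflat hpV U (fun σ hσ u hu => by
      rw [hU] at hu ⊢
      funext i
      fin_cases i
      · show (act σ u).1 0 = 0
        rw [a10, hu]; simp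
      · show (act σ u).1 1 = 0
        rw [a11, hu]; simp)
    have h3 : Aug p act U ≤ T := by
      refine (AddSubgroup.closure_le _).2 ?_
      rintro _ ⟨σ, hσ, u, hu, rfl⟩
      rw [hU] at hu
      show _ ∈ T
      rw [hT]
      show (act σ u).2 1 - u.2 1 = 0
      rw [a21, hu, hlow σ (Ip_le_Dp p hσ), hone σ hσ]
      simp
    exact (hT v).1 (h3 (h2 ⟨(hU v).2 (funext (Fin.forall_fin_two.2 ⟨h0, h1⟩)), hv⟩))
  -- `f₁`
  obtain ⟨f1, hf1, hf10, hf11⟩ : ∃ f1 ∈ Aug p act ⊤, f1.1 0 = 1 ∧ f1.1 1 = 0 := by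
    obtain ⟨σ₀, hσ₀, hne⟩ := nf1_exists_om_ne (k := k) hp2
    have hne' : (om p σ₀ : k) - 1 ≠ 0 := sub_ne_zero.2 hne
    refine ⟨(om p σ₀ - 1 : k)⁻¹ • (act σ₀ (![1, 0], 0) - (![1, 0], 0)),
      hsm_mem _ _ (nf1_sub_mem hσ₀ _), ?_, ?_⟩
    · show (om p σ₀ - 1 : k)⁻¹ * ((act σ₀ (![1, 0], 0)).1 0 - 1) = 1
      rw [a10, hom σ₀ hσ₀]
      simp [hne']
    · show (om p σ₀ - 1 : k)⁻¹ * ((act σ₀ (![1, 0], 0)).1 1 - 0) = 0
      rw [a11, hlow σ₀ (Ip_le_Dp p hσ₀)]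
      simp
  set x : k := f1.2 1 with hx
  have E1 : ∀ τ ∈ Dp p, R τ 1 1 * x + C τ 1 0 * R τ 0 0 - R τ 0 0 * x = 0 := by
    intro τ hτ
    have h := star (act τ f1 - R τ 0 0 • f1) (sub_mem (nf1_act_mem hτ hf1) (hsm_mem _ _ hf1))
      (by show (act τ f1).1 0 - R τ 0 0 * f1.1 0 = 0
          rw [a10, hf10, hf11]; ring)
      (by show (act τ f1).1 1 - R τ 0 0 * f1.1 1 = 0
          rw [a11, hf10, hf11, hlow τ hτ]; ring)
    have h' : (act τ f1).2 1 - R τ 0 0 * f1.2 1 = 0 := h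
    rw [a21, hf10, hf11, hlow τ hτ] at h'
    linear_combination h'
  let g : K2 k × K2 k := (![0, 1], 0)
  have E2 : ∀ σ ∈ Ip p, C σ 1 0 * R σ 0 1 + C σ 1 1 - R σ 0 1 * x = 0 := by
    intro σ hσ
    have h := star (act σ g - g - R σ 0 1 • f1) (sub_mem (nf1_sub_mem hσ g) (hsm_mem _ _ hf1))
      (by show (act σ g).1 0 - 0 - R σ 0 1 * f1.1 0 = 0
          rw [a10, hf10]; simp [g])
      (by show (act σ g).1 1 - 1 - R σ 0 1 * f1.1 1 = 0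
          rw [a11, hf11, hone σ hσ]; simp [g])
    have h' : (act σ g).2 1 - 0 - R σ 0 1 * f1.2 1 = 0 := h
    rw [a21, hone σ hσ] at h'
    simp only [g, Matrix.cons_val_zero, Matrix.cons_val_one, Pi.zero_apply] at h'
    linear_combination h'
  -- the modified cocycle
  have hR00 : ∀ τ ∈ Dp p, R τ 0 0 ≠ 0 := by
    intro τ hτ h0
    have h1 : (R τ).det ≠ 0 := by
      have := (Matrix.GeneralLinearGroup.det (r τ)).ne_zero
      rwa [Matrix.GeneralLinearGroup.val_det_apply] at this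
    rw [Matrix.det_fin_two, h0, hlow τ hτ] at h1
    simp at h1
  let X0 : Ad0 k := ⟨!![0, 0; x, 0], by rw [mem_M0, Matrix.trace_fin_two]; simp⟩
  let Y : GQ → M2 k := fun τ => R τ * X0.1 * (((r τ)⁻¹ : GL (Fin 2) k) : M2 k)
  have hY : ∀ τ, Y τ * R τ = R τ * X0.1 := fun τ => by
    show R τ * X0.1 * (((r τ)⁻¹ : GL (Fin 2) k) : M2 k) * ((r τ : GL (Fin 2) k) : M2 k) = _
    rw [mul_assoc, ← Units.val_mul, inv_mul_cancel, Units.val_one, mul_one]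
  have hY00 : ∀ τ ∈ Dp p, Y τ 0 0 * R τ 0 0 = R τ 0 1 * x := fun τ hτ => by
    have := congrFun (congrFun (hY τ) 0) 0
    simp only [Matrix.mul_apply, Fin.sum_univ_two, hlow τ hτ] at this
    simpa [X0] using this
  have hY10 : ∀ τ ∈ Dp p, Y τ 1 0 * R τ 0 0 = R τ 1 1 * x := fun τ hτ => by
    have := congrFun (congrFun (hY τ) 1) 0
    simp only [Matrix.mul_apply, Fin.sum_univ_two, hlow τ hτ] at this
    simpa [X0] using this
  have hY01 : ∀ τ, Y τ 0 0 * R τ 0 1 + Y τ 0 1 * R τ 1 1 = 0 := fun τ => by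
    have := congrFun (congrFun (hY τ) 0) 1
    simp only [Matrix.mul_apply, Fin.sum_univ_two] at this
    simpa [X0] using this
  have hsmo := nf1_smooth (p := p) r hsm
  let cD : ↥(Z1 (lvlD (pPrime p)) (adRhoD r (pPrime p))) :=
    Z1map (LvlMap.comap lvlQ (Dq (pPrime p)).subtype) (isHomAlong_res (adRho r) (Dq (pPrime p)).subtype) c
  let dX : ↥(Z1 (lvlD (pPrime p)) (adRhoD r (pPrime p))) :=
    ⟨d0 (adRhoD r (pPrime p)) X0, d0_mem_Z1 hsmo X0⟩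
  have hc' : ∀ (τ : ↥(Dp p)) i j, (((cD + dX : ↥(Z1 (lvlD (pPrime p)) (adRhoD r (pPrime p)))) :
      ↥(Dp p) → Ad0 k) τ : M2 k) i j = C τ i j + (Y τ i j - X0.1 i j) := fun τ i j => rfl
  -- consequences on inertia
  have F1 : ∀ σ ∈ Ip p, C σ 0 0 + Y σ 0 0 = 0 := by
    intro σ hσ
    have hD := Ip_le_Dp p hσ
    have e1 := E1 σ hD
    rw [hone σ hσ] at e1
    have h : (C σ 0 0 + Y σ 0 0) * R σ 0 0 = 0 := by
      linear_combination hY00 σ hD + R σ 0 0 * htr σ - R σ 0 0 * E2 σ hσ + R σ 0 1 * e1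
    exact (mul_eq_zero.1 h).resolve_right (hR00 σ hD)
  refine ⟨cD + dX, ⟨fun τ => ?_, fun σ => ?_, fun l => ?_⟩, ?_⟩
  · rw [hc']
    have h : (C τ 1 0 + (Y τ 1 0 - X0.1 1 0)) * R τ 0 0 = 0 := by
      have : X0.1 1 0 = x := by simp [X0]
      rw [this]
      linear_combination hY10 τ τ.2 + E1 τ τ.2
    exact (mul_eq_zero.1 h).resolve_right (hR00 τ τ.2)
  · rw [hc']
    have : X0.1 0 0 = 0 := by simp [X0]
    rw [this, sub_zero]
    exact F1 σ σ.2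
  · let ℓ : K2 k × K2 k →+ ZMod p :=
      l.comp ((Pi.evalAddMonoidHom (fun _ : Fin 2 => k) 0).comp (AddMonoidHom.snd (K2 k) (K2 k)))
    have h := hTR _ act hflat hpV ζ hζ g ℓ (by
      intro σ hσ τ hτ
      rw [← Nat.cast_smul_eq_nsmul k]
      have hDτ := Ip_le_Dp p hτ
      have w10 : (act σ g - g).1 0 = R σ 0 1 := by
        show (act σ g).1 0 - 0 = _
        rw [a10]; simp [g]
      have w11 : (act σ g - g).1 1 = 0 := by
        show (act σ g).1 1 - 1 = _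
        rw [a11, hone σ hσ]; simp [g]
      have w21 : (act σ g - g).2 1 = R σ 0 1 * x := by
        show (act σ g).2 1 - 0 = _
        rw [a21, hone σ hσ]
        simp only [g, Matrix.cons_val_zero, Matrix.cons_val_one, Pi.zero_apply]
        linear_combination E2 σ hσ
      have e1 := E1 τ hDτ
      rw [hone τ hτ] at e1
      have f1 := F1 τ hτ
      have y00 := hY00 τ hDτ
      have hω : ((omN p τ : ℕ) : k) = R τ 0 0 := (hom τ hτ).symm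
      apply nf1_ext
      · show _ = ((omN p τ : ℕ) : k) * (act σ g - g).1 0
        rw [a10, w10, w11, hω]; ring
      · show _ = ((omN p τ : ℕ) : k) * (act σ g - g).1 1
        rw [a11, w10, w11, hlow τ hDτ]; ring
      · show _ = ((omN p τ : ℕ) : k) * (act σ g - g).2 0
        rw [a20, w10, w11, w21, hω, hlow τ hDτ]
        linear_combination R σ 0 1 * R τ 0 0 * f1 - R σ 0 1 * y00
      · show _ = ((omN p τ : ℕ) : k) * (act σ g - g).2 1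
        rw [a21, w10, w11, w21, hω, hlow τ hDτ, hone τ hτ]
        linear_combination R σ 0 1 * e1)
    refine h.congr fun σ => ?_
    show l ((act (σ : GQ) g).2 0 - 0) = l _
    congr 1
    have e : (((cD + dX : ↥(Z1 (lvlD (pPrime p)) (adRhoD r (pPrime p)))) :
      ↥(Dp p) → Ad0 k) (iD p σ) : M2 k) 0 1 = C σ 0 1 + (Y σ 0 1 - X0.1 0 1) := rfl
    rw [e, a20, hone σ σ.2]
    have : X0.1 0 1 = 0 := by simp [X0]
    rw [this]
    have y01 := hY01 σ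
    rw [hone σ σ.2] at y01
    simp only [g, Matrix.cons_val_zero, Matrix.cons_val_one, Pi.zero_apply]
    linear_combination R σ 0 1 * F1 σ σ.2 - y01
  · rw [map_add]
    have : H1.mk (lvlD (pPrime p)) (adRhoD r (pPrime p)) dX = 0 := by
      rw [H1.mk_eq_zero_iff]
      exact ⟨LC1_d0 hsmo X0, X0, rfl⟩
    rw [this, add_zero]
    rfl

end Fermat.Agent.S56.Flat.FR
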