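import Fermat.Agent.S56.Flat.FR.NF0
import Fermat.Agent.S56.Flat.FR.NF1
import Fermat.Agent.S56.Flat.FR.Count

/-!
# S56 / FLAT / FR : the reducible case, assembled (helper8)

`fr_local` : if `r0 (D_p)` stabilises a line, there is a finite `L ≤ H¹(D_p, ad⁰)`, `#L ≤ #k * #H⁰(D_p, ad⁰)`, containing the local classes of all cocycles `c` such that
`ρbar` and the lift `(1 + ε c) r0` are flat (`FlatRes`, `FlatLift`; use `flatRes_of_rhoV`, `flatLift_of_rhoV` of `Trans.lean` to get them from `IsFlatMod … (rhoV …)`).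
The inputs `CEp p`, `OTp p`, `TRp p` come from block FL.
-/

set_option autoImplicit false

noncomputable section

namespace Fermat.Agent.S56.Flat.FR

open Fermat.Agent.S53 (M2)
open Fermat.Agent.S55 Fermat.Agent.S55.B Fermat.Agent.S05 ExtCitation Fermat.Agent.S56

variable {p : ℕ} [Fact p.Prime] {k : Type} [Field k]

theorem isSm_conj (g : GL (Fin 2) k) {r0 : GQ →* GL (Fin 2) k} (h : IsSm r0) : IsSm (conjRep g r0) := by
  obtain ⟨U, hU, h1⟩ := h
  exact ⟨U, hU, fun σ hσ => by rw [conjRep_apply, h1 σ hσ, mul_one, mul_inv_cancel]⟩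

theorem fr_local [Finite k] [CharP k p] (hCE : CEp p) (hOT : OTp p) (hTR : TRp p) (hp2 : p ≠ 2)
    (r0 : GQ →* GL (Fin 2) k) (hsm : IsSm r0) (hdet : IsCycDet p r0)
    (hred : ∃ v : K2 k, v ≠ 0 ∧ ∀ σ ∈ Dp p, ∃ a : k, (r0 σ : M2 k).mulVec v = a • v) :
    ∃ L : AddSubgroup (H1 (lvlD (pPrime p)) (adRhoD r0 (pPrime p))), Finite L ∧
      Nat.card L ≤ Nat.card k * Nat.card (H0 (adRhoD r0 (pPrime p))) ∧
      ∀ c : ↥(Z1 lvlQ (adRho r0)), FlatRes p r0 → FlatLift p r0 c →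
        loc1 (adRho r0) (pPrime p) (H1.mk lvlQ (adRho r0) c) ∈ L := by
  by_cases hfl : FlatRes p r0
  · obtain ⟨g, hUT⟩ := nf0 hCE hOT hp2 r0 hsm hdet hred hfl
    obtain ⟨ζ, hζ⟩ := S33.cycAux_exists_prim (pPrime p)
    have hζ' : IsPrimitiveRoot ζ p := hζ
    have hfl' := flatRes_conj g hfl
    have hsm' := isSm_conj g hsm
    obtain ⟨hfin, hcard⟩ := count hp2 hζ' (conjRep g r0) hsm' hUT (pr_res hTR hζ' _ hUT hfl')
    obtain ⟨L, hLfin, hLcard, hL⟩ := transport g r0 (pPrime p) (LL p ζ hζ'.pow_eq_one (conjRep g r0)) hfin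
    refine ⟨L, hLfin, ?_, fun c _ hc => ?_⟩
    · exact hLcard.trans (hcard.trans (Nat.mul_le_mul_left _ (card_H0_conj g r0 (pPrime p))))
    · exact hL c (nf1 hCE hTR hp2 hζ' (conjRep g r0) hsm' hUT ⟨conjCoc g c, conjCoc_mem g r0 c.2⟩
        (flatLift_conj g hc))
  · refine ⟨⊥, inferInstance, ?_, fun c h _ => absurd h hfl⟩
    have : Finite (Ad0 k) := Subtype.finite
    rw [Nat.card_unique]
    exact Nat.mul_pos Nat.card_pos Nat.card_pos

end Fermat.Agent.S56.Flat.FR
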