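import Mathlib

/-!
# S56 / FLAT / FR : the semilinear lemma (SL)        key `S56/FR-SL`   (MATHLIB ONLY)

`F` a field of characteristic `p`, `Λ` a finite abelian group killed by `p`, `s` an automorphism of `Λ`.
The additive maps `T : Λ → F` with `T (l) ^ p = T (s l)` form a finite set with at most `#Λ` elements.

PROOF.  `X := {T | ∀ l, T l ^ p = T (s l)}` is an `𝔽_p`-subspace of the `F`-vector space `Λ →+ F` (or `Λ → F`).
(1) `𝔽_p`-linearly independent `T_1, …, T_m ∈ X` are `F`-linearly independent: take a nontrivial relation `∑ a_i T_i = 0` with support of MINIMAL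
    cardinality, normalised by `a_{i0} = 1`.  Then `∑ a_i^p T_i (s l) = (∑ a_i T_i l)^p = 0` for all `l` (`add_pow_char`, `sum_pow_char`), `s` is onto, so
    `∑ a_i^p T_i = 0`; the relation `∑ (a_i^p - a_i) T_i = 0` has smaller support, so `a_i^p = a_i`, i.e. `a_i ∈ 𝔽_p`
    (`Subfield.mem_bot_iff_pow_eq_self`, `Subfield.bot_eq_of_zMod_algebra`): a nontrivial `𝔽_p`-relation. Contradiction.
(2) `Λ` has an `𝔽_p`-basis `b_1 … b_d` (`AddCommGroup.zmodModule`), `#Λ = p^d`; `T ↦ (T b_i)_i`, `(Λ →+ F) → F^d` is `F`-linear and injective, so `m ≤ d`.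
(3) `rank_le` : `dim_{𝔽_p} X ≤ d`, so `X` is finite with `p^(dim) ≤ p^d` elements.
-/

set_option autoImplicit false

namespace Fermat.Agent.S56.Flat.FR

/-- Frobenius descent of linear independence -/
theorem sl_indep {p : ℕ} [Fact p.Prime] {F : Type*} [Field F] [CharP F p] {ι X : Type*}
    (g : ι → X → F) (a : X → X) (ha : Function.Surjective a) (hg : ∀ i x, g i x ^ p = g i (a x))
    (s : Finset ι)
    (h : ∀ c : ι → F, (∀ i, c i ^ p = c i) → ∑ i ∈ s, c i • g i = 0 → ∀ i ∈ s, c i = 0) :
    ∀ c : ι → F, ∑ i ∈ s, c i • g i = 0 → ∀ i ∈ s, c i = 0 := by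
  classical
  have hp0 : p ≠ 0 := (Fact.out : p.Prime).ne_zero
  have hconj : ∀ (t : Finset ι) (c : ι → F), ∑ i ∈ t, c i • g i = 0 →
      ∑ i ∈ t, (c i ^ p) • g i = 0 := by
    intro t c hc
    funext b
    obtain ⟨b', rfl⟩ := ha b
    have h1 := congrFun hc b'
    simp only [Finset.sum_apply, Pi.smul_apply, smul_eq_mul, Pi.zero_apply] at h1 ⊢
    have h2 : (∑ i ∈ t, c i * g i b') ^ p = 0 ^ p := congrArg (fun z : F => z ^ p) h1
    rw [sum_pow_char, zero_pow hp0] at h2
    rw [← h2]
    refine Finset.sum_congr rfl fun i _ => ?_
    rw [mul_pow, hg]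
  have key : ∀ t : Finset ι, t ⊆ s → ∀ c : ι → F, ∑ i ∈ t, c i • g i = 0 → ∀ i ∈ t, c i = 0 := by
    intro t
    induction t using Finset.induction_on with
    | empty => intro _ c _ i hi; exact absurd hi (Finset.notMem_empty i)
    | insert a t hat ih =>
      intro hts c hc
      have hts' : t ⊆ s := (Finset.subset_insert a t).trans hts
      by_cases hca : c a = 0
      · have h1 : ∑ i ∈ t, c i • g i = 0 := by
          rw [Finset.sum_insert hat, hca, zero_smul, zero_add] at hc
          exact hc
        intro i hi
        rcases Finset.mem_insert.mp hi with rfl | hi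
        · exact hca
        · exact ih hts' c h1 i hi
      · exfalso
        set d : ι → F := fun i => if i ∈ insert a t then c i / c a else 0 with hd
        have hda : d a = 1 := by
          simp only [hd, Finset.mem_insert_self, if_true]
          exact div_self hca
        have hrel : ∑ i ∈ insert a t, d i • g i = 0 := by
          have : ∑ i ∈ insert a t, d i • g i = (c a)⁻¹ • ∑ i ∈ insert a t, c i • g i := by
            rw [Finset.smul_sum]
            refine Finset.sum_congr rfl fun i hi => ?_
            rw [smul_smul]
            congr 1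
            simp only [hd, if_pos hi]
            exact div_eq_inv_mul _ _
          rw [this, hc, smul_zero]
        have hfix : ∀ i ∈ t, d i ^ p = d i := by
          intro i hi
          have h1 := hconj _ d hrel
          rw [Finset.sum_insert hat, hda, one_pow] at h1
          rw [Finset.sum_insert hat, hda] at hrel
          have h2 : ∑ i ∈ t, (d i ^ p - d i) • g i = 0 := by
            simp only [sub_smul, Finset.sum_sub_distrib]
            have e1 : ∑ i ∈ t, (d i ^ p) • g i = - ((1 : F) • g a) := by
              rw [eq_neg_iff_add_eq_zero, add_comm]; exact h1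
            have e2 : ∑ i ∈ t, d i • g i = - ((1 : F) • g a) := by
              rw [eq_neg_iff_add_eq_zero, add_comm]; exact hrel
            rw [e1, e2, sub_self]
          exact sub_eq_zero.mp (ih hts' _ h2 i hi)
        have hmem : ∀ i, d i ^ p = d i := by
          intro i
          by_cases hi : i ∈ insert a t
          · rcases Finset.mem_insert.mp hi with rfl | hi
            · rw [hda, one_pow]
            · exact hfix i hi
          · simp only [hd, if_neg hi, zero_pow hp0]
        have hrel' : ∑ i ∈ s, d i • g i = 0 := by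
          rw [← hrel]
          refine (Finset.sum_subset hts fun i _ hi => ?_).symm
          simp only [hd, if_neg hi, zero_smul]
        have h0 := h d hmem hrel' a (hts (Finset.mem_insert_self a t))
        rw [hda] at h0
        exact one_ne_zero h0
  exact key s (Finset.Subset.refl s)

theorem sl_card {p : ℕ} [Fact p.Prime] {F : Type} [Field F] [CharP F p] {Λ : Type} [AddCommGroup Λ]
    [Finite Λ] (hΛ : ∀ l : Λ, p • l = 0) (s : Λ ≃+ Λ) :
    Finite {T : Λ →+ F // ∀ l, T l ^ p = T (s l)} ∧
      Nat.card {T : Λ →+ F // ∀ l, T l ^ p = T (s l)} ≤ Nat.card Λ := by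
  classical
  letI : Algebra (ZMod p) F := ZMod.algebra F p
  have : Module (ZMod p) Λ := AddCommGroup.zmodModule hΛ
  have hΛfin : Module.Finite (ZMod p) Λ := Module.Finite.of_finite
  let X : Submodule (ZMod p) (Λ →+ F) :=
    { carrier := {T | ∀ l, T l ^ p = T (s l)}
      add_mem' := by
        intro a b ha hb l
        show (a l + b l) ^ p = a (s l) + b (s l)
        rw [add_pow_char, ha, hb]
      zero_mem' := by
        intro l
        show (0 : F) ^ p = 0
        exact zero_pow (Fact.out : p.Prime).ne_zero
      smul_mem' := by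
        intro c a ha l
        show (c • a l) ^ p = c • a (s l)
        rw [Algebra.smul_def, mul_pow, ha, ← map_pow, ZMod.pow_card, ← Algebra.smul_def] }
  let b := Module.finBasis (ZMod p) Λ
  let ev : (Λ →+ F) →ₗ[F] (Fin (Module.finrank (ZMod p) Λ) → F) :=
    { toFun := fun T i => T (b i)
      map_add' := fun _ _ => rfl
      map_smul' := fun _ _ => rfl }
  have hev : Function.Injective ev := by
    intro T T' h
    have h1 := b.ext (f₁ := T.toZModLinearMap p) (f₂ := T'.toZModLinearMap p) (fun i => congrFun h i)
    exact AddMonoidHom.toZModLinearMap_injective p h1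
  have hrank : Module.rank (ZMod p) X ≤ (Module.finrank (ZMod p) Λ : ℕ) := by
    apply rank_le
    intro S hS
    have hF : LinearIndependent F (fun i : S => (((i : X) : Λ →+ F))) := by
      rw [Fintype.linearIndependent_iff]
      intro c hc i
      refine sl_indep (p := p) (fun (i : S) (l : Λ) => ((i : X) : Λ →+ F) l) s s.surjective
        (fun i l => (i : X).2 l) Finset.univ ?_ c ?_ i (Finset.mem_univ i)
      · intro c hcp hc0 i _
        have hn : ∀ i, ∃ n : ZMod p, algebraMap (ZMod p) F n = c i := by
          intro i
          have h2 := (Subfield.mem_bot_iff_pow_eq_self F p).2 (hcp i)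
          rw [← ZMod.fieldRange_castHom_eq_bot p] at h2
          obtain ⟨n, hn⟩ := h2
          exact ⟨n, hn⟩
        choose n hn using hn
        have h3 : ∑ i, n i • (i : X) = 0 := by
          apply Subtype.ext
          rw [Submodule.coe_sum]
          ext l
          have h4 := congrFun hc0 l
          simp only [Finset.sum_apply, Pi.smul_apply, smul_eq_mul, Pi.zero_apply] at h4
          rw [AddMonoidHom.finset_sum_apply]
          show _ = (0 : F)
          rw [← h4]
          refine Finset.sum_congr rfl fun i _ => ?_
          show n i • (((i : X) : Λ →+ F) l) = _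
          rw [Algebra.smul_def, hn]
        have h5 := Fintype.linearIndependent_iff.1 hS n h3 i
        rw [← hn, h5, map_zero]
      · funext l
        have h4 := congrArg (fun T : Λ →+ F => T l) hc
        simp only [AddMonoidHom.finset_sum_apply] at h4
        simp only [Finset.sum_apply, Pi.smul_apply, smul_eq_mul, Pi.zero_apply]
        exact h4
    have h2 := (hF.map' ev (LinearMap.ker_eq_bot.2 hev)).fintype_card_le_finrank
    simpa using h2
  have hfin : Module.Finite (ZMod p) X :=
    Module.rank_lt_aleph0_iff.1 (lt_of_le_of_lt hrank (Cardinal.nat_lt_aleph0 _))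
  have hXfin : Finite X := Module.finite_of_finite (ZMod p)
  refine ⟨hXfin, ?_⟩
  have hle : Module.finrank (ZMod p) X ≤ Module.finrank (ZMod p) Λ := Module.finrank_le_of_rank_le hrank
  have := Fintype.ofFinite X
  have := Fintype.ofFinite Λ
  have c1 : Nat.card X = p ^ Module.finrank (ZMod p) X := by
    rw [Nat.card_eq_fintype_card, Module.card_eq_pow_finrank (K := ZMod p), ZMod.card]
  have c2 : Nat.card Λ = p ^ Module.finrank (ZMod p) Λ := by
    rw [Nat.card_eq_fintype_card, Module.card_eq_pow_finrank (K := ZMod p), ZMod.card]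
  show Nat.card X ≤ Nat.card Λ
  rw [c1, c2]
  exact Nat.pow_le_pow_right (Fact.out : p.Prime).pos hle

end Fermat.Agent.S56.Flat.FR
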