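import Fermat.Agent.S56.Flat.FR.KumB
import Fermat.Agent.S56.Flat.FR.SL
import Fermat.Agent.S55.D.ProCycInst
import Fermat.Agent.S55.A.LinAlg

/-!
# S56 / FLAT / FR : `#H¹_f(D, k(ψ)) ≤ #k`  (claim (U) of the briefing)       key `S56/FR-HF`

`ψ : D → kˣ` a character with `ψ | I = ω`.  `IsZf p ζ ψ b` : `b : D → k` is a cocycle for `ψ` (S55 convention `b (σ τ) = ψ σ * b τ + b σ`) which is of unit type on `I`.
`hf` : there are a finite set `Y`, `#Y ≤ #k`, and `Θ : (D → k) → Y` such that `Θ b = Θ b'` implies `b - b'` is a coboundary.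

PROOF.  `F := kk (vp p)` (residue field, `charP_kk`), `Λ := (k →+ ZMod p)`, `#Λ = #k` (or `≤`: `Λ` is the dual of the `𝔽_p`-vector space `k`), `φ` a Frobenius (`exists_fr`),
`μ := χ(φ) ψ(φ)⁻¹ ∈ kˣ`, `s : Λ ≃+ Λ`, `(s l) y = l (μ y)`.   `Y := {T : Λ →+ F // ∀ l, T l ^ p = T (s l)}` (`sl_card`).
For `b` with `IsZf`: `T_b l := rs (x_l)`, `x_l` any element with `KT p ζ (l ∘ b) x_l` (`exists_KT`, `KT.int`).
 * independent of the choice: `KT f x`, `KT f x'` ⟹ `v (x - x') > 0`   [`KT.neg` for `x'`, `KT.add`, `KT.GT_of_zero`].   Additive in `l` : `KT.add`.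
 * `T_b l ^ p = T_b (s l)` : `KT.frob` : `KT (σ ↦ χ φ * l (b (φ⁻¹ σ φ))) (φ x_l)`; the cocycle relation gives `b (φ⁻¹ σ φ) = ψ(φ)⁻¹ (b σ - (1 - ψ σ) b φ)`, so
   `χ φ * l (b (φ⁻¹ σ φ)) = (s l) (b σ) + (χ σ - 1) * (s l) (b φ)`; `KT.cob` + `KT.neg`/`KT.add` remove the coboundary; `φ x ≡ x^p`.
 * `Θ b := ⟨T_b, _⟩` if `IsZf b`, anything otherwise.
 * `T_b = T_b'` ⟹ for every `l` : `KT (l ∘ (b - b')) x''` with `v x'' > 0` ⟹ (`KT.cob_of_GT`) `l ((b - b') σ) = (χ σ - 1) i_l` on `I`.  `σ₀ ∈ I` with `χ σ₀ ≠ 1` (`S33.exists_moves`),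
   `y := (b - b') σ₀ / (ω σ₀ - 1)`; then `l ((b - b') σ - (ω σ - 1) y) = 0` for all `l`, so `(b - b') σ = (ω σ - 1) y` on `I` (functionals separate points: `Module.forall_dual_apply_eq_zero_iff`).
   `b'' := b - b' - d y` is a cocycle vanishing on `I`; for `τ ∈ D`, `σ₀ τ = τ σ'` with `σ' ∈ I`: `ψ σ₀ * b'' τ = b'' (σ₀ τ) = b'' (τ σ') = b'' τ`, so `b'' τ = 0`.
-/

set_option autoImplicit false

noncomputable section

namespace Fermat.Agent.S56.Flat.FR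

open Fermat.Agent.S55 Fermat.Agent.S55.B Fermat.Agent.S05 ExtCitation Fermat.Agent.S56 Fermat.Agent.S33

variable (p : ℕ) [Fact p.Prime]

/-- a Frobenius lift -/
theorem exists_fr : ∃ φ : ↥(Dp p), (∀ x : Qb, (vp p).GE x 0 → (vp p).GT ((φ : GQ) x - x ^ p) 0) ∧
    ProCyc (lvlD (pPrime p)) ((Ip p).subgroupOf (Dp p)) φ := by
  obtain ⟨φ, hφ, hpc⟩ := D.exists_proCyc (pPrime p)
  refine ⟨φ, fun x hx => ?_, hpc⟩
  have hxA : x ∈ primeLocalPlace (pPrime p) := by rw [← OO_wq]; exact hx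
  have h1 := D.frob_pow_smul hφ 1 (IsLocalRing.residue _ ⟨x, hxA⟩)
  rw [← IsLocalRing.ResidueField.residue_smul, ← map_pow, D.residue_eq_iff, pow_one, pow_one] at h1
  exact (GT_zero_iff_mem_nonunits _).2 h1

variable {k : Type} [Field k]

/-- cocycles for `ψ` of unit type on inertia -/
def IsZf (ζ : Qb) (ψ : ↥(Dp p) →* kˣ) (b : ↥(Dp p) → k) : Prop :=
  (∀ σ τ, b (σ * τ) = (ψ σ : k) * b τ + b σ) ∧
    ∀ l : k →+ ZMod p, PR1 p ζ (fun σ => l (b (iD p σ)))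

variable {p}
variable {ζ : Qb}

theorem GT_p_mul {x y : Qb} (hx : (vp p).GE x 0) (hy : (vp p).GE y 0) : (vp p).GT ((p : Qb) * x * y) 0 := by
  have h1 := ((EQ_p (p := p)).GT (b := 0) (by norm_num)).mul_GE hx
  have h2 := h1.mul_GE hy
  simpa using h2

theorem KT.sub_cob (hp2 : p ≠ 2) (hζ : IsPrimitiveRoot ζ p) {f f' : ↥(Ip p) → ZMod p} {x x' : Qb}
    (h : KT p ζ f x) (h' : KT p ζ f' x') (hxx : (vp p).GT (x - x') 0) :
    ∃ i : ZMod p, ∀ σ : ↥(Ip p), f σ - f' σ = (chi p σ - 1) * i := by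
  obtain ⟨x'', h'', hs⟩ := h'.neg hζ.pow_eq_one
  have h1 := h.add hζ.pow_eq_one h''
  have h2 : (vp p).GT (x + x'' + p * x * x'') 0 := by
    have e : x + x'' + p * x * x'' = (x - x') + (x' + x'') + p * x * x'' := by ring
    rw [e]
    exact (hxx.add hs).add (GT_p_mul (h.int hζ.pow_eq_one) (h''.int hζ.pow_eq_one))
  obtain ⟨i, hi⟩ := h1.cob_of_GT hp2 hζ h2
  exact ⟨i, fun σ => by rw [← hi σ, Pi.add_apply, Pi.neg_apply, sub_eq_add_neg]⟩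

theorem KT.uniq (hζ : ζ ^ p = 1) {f : ↥(Ip p) → ZMod p} {x x' : Qb}
    (h : KT p ζ f x) (h' : KT p ζ f x') : (vp p).GT (x - x') 0 := by
  obtain ⟨x'', h'', hs⟩ := h'.neg hζ
  have h1 := h.add hζ h''
  rw [add_neg_cancel] at h1
  have h2 := h1.GT_of_zero
  have e : x - x' = (x + x'' + p * x * x'') - p * x * x'' - (x' + x'') := by ring
  rw [e]
  exact (h2.sub (GT_p_mul (h.int hζ) (h''.int hζ))).sub hs

/-- `n * l z = l (n z)` -/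
theorem l_cast_mul [CharP k p] (l : k →+ ZMod p) (n : ZMod p) (z : k) :
    l ((n.val : k) * z) = n * l z := by
  rw [← nsmul_eq_mul, map_nsmul, nsmul_eq_mul, ZMod.natCast_val, ZMod.cast_id', id]

theorem l_om_mul [CharP k p] (l : k →+ ZMod p) (τ : GQ) (z : k) :
    l ((om p τ - 1) * z) = (chi p τ - 1) * l z := by
  rw [sub_mul, one_mul, map_sub, sub_mul, one_mul]
  congr 1
  exact l_cast_mul l _ z

theorem cast_val_eq_one_iff [CharP k p] (n : ZMod p) : ((n.val : ℕ) : k) = 1 ↔ n = 1 := by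
  have h1 : ((n.val : ℕ) : k) = ZMod.castHom (dvd_refl p) k n := by
    rw [ZMod.castHom_apply, ZMod.natCast_val]
  rw [h1, ← map_one (ZMod.castHom (dvd_refl p) k)]
  exact (ZMod.castHom (dvd_refl p) k).injective.eq_iff

theorem exists_chi_ne_one (hp2 : p ≠ 2) : ∃ σ₀ : ↥(Ip p), chi p (σ₀ : GQ) ≠ 1 := by
  obtain ⟨σ₀, h0, ζ', h1, h2⟩ := exists_moves (pPrime p) hp2
  refine ⟨⟨σ₀, h0⟩, fun h => h2 ?_⟩
  have h3 := E.cycloChar_spec p σ₀ h1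
  have h4 : ((cycloChar p σ₀ : (ZMod p)ˣ) : ZMod p) = 1 := h
  rw [h4, ZMod.val_one, pow_one] at h3
  exact h3


/-- the function `σ ↦ l (b σ)` on inertia -/
def fl (b : ↥(Dp p) → k) (l : k →+ ZMod p) : ↥(Ip p) → ZMod p := fun σ => l (b (iD p σ))

/-- a choice of `x` -/
def xl (hζ : ζ ^ p = 1) (b : ↥(Dp p) → k) (hb : ∀ l : k →+ ZMod p, PR1 p ζ (fl b l)) (l : k →+ ZMod p) : Qb :=
  (exists_KT hζ (hb l)).choose

theorem xl_spec (hζ : ζ ^ p = 1) (b : ↥(Dp p) → k) (hb : ∀ l : k →+ ZMod p, PR1 p ζ (fl b l))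
    (l : k →+ ZMod p) : KT p ζ (fl b l) (xl hζ b hb l) := (exists_KT hζ (hb l)).choose_spec

/-- the invariant `Ξ` -/
def TT (hζ : ζ ^ p = 1) (b : ↥(Dp p) → k) (hb : ∀ l : k →+ ZMod p, PR1 p ζ (fl b l)) :
    (k →+ ZMod p) →+ kk (vp p) :=
  AddMonoidHom.mk' (fun l => rs (vp p) ⟨xl hζ b hb l, (xl_spec hζ b hb l).int hζ⟩) (by
    intro l l'
    rw [← map_add, rs_eq_iff]
    have h1 := (xl_spec hζ b hb l).add hζ (xl_spec hζ b hb l')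
    have e : fl b l + fl b l' = fl b (l + l') := rfl
    rw [e] at h1
    have h2 := (xl_spec hζ b hb (l + l')).uniq hζ h1
    have h3 := GT_p_mul ((xl_spec hζ b hb l).int hζ) ((xl_spec hζ b hb l').int hζ)
    have e2 : xl hζ b hb (l + l') - (xl hζ b hb l + xl hζ b hb l') =
        (xl hζ b hb (l + l') - (xl hζ b hb l + xl hζ b hb l' + p * xl hζ b hb l * xl hζ b hb l')) +
          p * xl hζ b hb l * xl hζ b hb l' := by ring
    show (vp p).GT (xl hζ b hb (l + l') - (xl hζ b hb l + xl hζ b hb l')) 0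
    rw [e2]
    exact h2.add h3)

theorem TT_eq (hζ : ζ ^ p = 1) (b : ↥(Dp p) → k) (hb : ∀ l : k →+ ZMod p, PR1 p ζ (fl b l))
    (l : k →+ ZMod p) {x : Qb} (hx : KT p ζ (fl b l) x) :
    TT hζ b hb l = rs (vp p) ⟨x, hx.int hζ⟩ := by
  show rs (vp p) ⟨xl hζ b hb l, _⟩ = _
  rw [rs_eq_iff]
  exact (xl_spec hζ b hb l).uniq hζ hx

/-- multiplication by `μ` on the dual -/
def sMul (μ : kˣ) : (k →+ ZMod p) ≃+ (k →+ ZMod p) where
  toFun l := l.comp (AddMonoidHom.mulLeft (μ : k))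
  invFun l := l.comp (AddMonoidHom.mulLeft ((μ⁻¹ : kˣ) : k))
  left_inv l := by ext y; simp
  right_inv l := by ext y; simp
  map_add' l l' := rfl

@[simp] theorem sMul_apply (μ : kˣ) (l : k →+ ZMod p) (y : k) : sMul μ l y = l ((μ : k) * y) := rfl

theorem coc_one {ψ : ↥(Dp p) →* kˣ} {b : ↥(Dp p) → k}
    (hb : ∀ σ τ, b (σ * τ) = (ψ σ : k) * b τ + b σ) : b 1 = 0 := by
  have := hb 1 1
  rw [mul_one, map_one, Units.val_one, one_mul] at this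
  exact left_eq_add.1 this |>.symm ▸ rfl

theorem coc_conj {ψ : ↥(Dp p) →* kˣ} {b : ↥(Dp p) → k}
    (hb : ∀ σ τ, b (σ * τ) = (ψ σ : k) * b τ + b σ) (Φ S : ↥(Dp p)) :
    b (Φ⁻¹ * S * Φ) = ((ψ Φ)⁻¹ : kˣ) * (b S + ((ψ S : k) - 1) * b Φ) := by
  have h1 : b Φ⁻¹ = -(((ψ Φ)⁻¹ : kˣ) : k) * b Φ := by
    have := hb Φ⁻¹ Φ
    rw [inv_mul_cancel, coc_one hb, map_inv] at this
    linear_combination -this
  rw [hb, hb, h1, map_mul, map_inv, Units.val_mul]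
  ring


/-- `χ(φ)` as a unit of `k` -/
def chiU (k : Type) [Field k] [CharP k p] (φ : GQ) : kˣ :=
  Units.map (ZMod.castHom (dvd_refl p) k : ZMod p →* k) (cycloChar p φ)

theorem chiU_coe [CharP k p] (φ : GQ) : ((chiU k φ : kˣ) : k) = ((chi p φ).val : k) := by
  show ZMod.castHom (dvd_refl p) k (chi p φ) = _
  rw [ZMod.castHom_apply, ZMod.natCast_val]

theorem TT_semilinear [CharP k p] (hζ : ζ ^ p = 1) {ψ : ↥(Dp p) →* kˣ}
    (hψ : ∀ σ : ↥(Ip p), (ψ (iD p σ) : k) = om p (σ : GQ)) {b : ↥(Dp p) → k}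
    (hb1 : ∀ σ τ, b (σ * τ) = (ψ σ : k) * b τ + b σ)
    (hb : ∀ l : k →+ ZMod p, PR1 p ζ (fl b l)) {φ : ↥(Dp p)}
    (hφ : ∀ x : Qb, (vp p).GE x 0 → (vp p).GT ((φ : GQ) x - x ^ p) 0) (l : k →+ ZMod p) :
    TT hζ b hb l ^ p = TT hζ b hb (sMul (chiU k (φ : GQ) * (ψ φ)⁻¹) l) := by
  set μ : kˣ := chiU k (φ : GQ) * (ψ φ)⁻¹ with hμ
  have h0 := xl_spec hζ b hb l
  have h1 := h0.frob hζ φ.2
  set i : ZMod p := sMul μ l (b φ) with hi
  have e1 : (fun σ : ↥(Ip p) => chi p (φ : GQ) * fl b l ⟨(φ : GQ)⁻¹ * (σ : GQ) * (φ : GQ), conj_mem_Ip φ.2 σ⟩) =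
      fl b (sMul μ l) + fun σ : ↥(Ip p) => (chi p (σ : GQ) - 1) * i := by
    funext σ
    have e2 : iD p ⟨(φ : GQ)⁻¹ * (σ : GQ) * (φ : GQ), conj_mem_Ip φ.2 σ⟩ = φ⁻¹ * iD p σ * φ := rfl
    show chi p (φ : GQ) * l (b (iD p ⟨(φ : GQ)⁻¹ * (σ : GQ) * (φ : GQ), conj_mem_Ip φ.2 σ⟩)) =
      l ((μ : k) * b (iD p σ)) + (chi p (σ : GQ) - 1) * l ((μ : k) * b φ)
    rw [e2, coc_conj hb1, hψ, ← l_cast_mul, ← chiU_coe, ← l_om_mul, ← map_add]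
    congr 1
    rw [hμ, Units.val_mul]
    ring
  rw [e1] at h1
  have h2 := h1.add hζ (KT.cob hζ (-i))
  have e3 : (fl b (sMul μ l) + fun σ : ↥(Ip p) => (chi p (σ : GQ) - 1) * i) +
      (fun σ : ↥(Ip p) => (chi p (σ : GQ) - 1) * -i) = fl b (sMul μ l) := by
    funext σ
    simp only [Pi.add_apply]
    ring
  rw [e3, add_zero, mul_zero, add_zero] at h2
  rw [TT_eq hζ b hb _ h2, TT_eq hζ b hb _ h0, ← map_pow, rs_eq_iff]
  have := hφ _ (h0.int hζ)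
  have h4 := this.neg
  rw [neg_sub] at h4
  exact h4

theorem hf [Finite k] [CharP k p] (hp2 : p ≠ 2) {ζ : Qb} (hζ : IsPrimitiveRoot ζ p) (ψ : ↥(Dp p) →* kˣ)
    (hψ : ∀ σ : ↥(Ip p), (ψ (iD p σ) : k) = om p (σ : GQ)) :
    ∃ (Y : Type) (_ : Finite Y) (Θ : (↥(Dp p) → k) → Y), Nat.card Y ≤ Nat.card k ∧
      ∀ b b' : ↥(Dp p) → k, IsZf p ζ ψ b → IsZf p ζ ψ b' → Θ b = Θ b' →
        ∃ y : k, ∀ σ, b σ - b' σ = ((ψ σ : k) - 1) * y := by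
  classical
  have hζ1 := hζ.pow_eq_one
  have hpp : p.Prime := Fact.out
  have hk : ∀ v : k, p • v = 0 := fun v => by rw [nsmul_eq_mul, CharP.cast_eq_zero, zero_mul]
  have : CharP (kk (vp p)) p := charP_kk (vp p) hpp (EQ_p.GT (by norm_num))
  obtain ⟨φ, hφ, -⟩ := exists_fr p
  set μ : kˣ := chiU k (φ : GQ) * (ψ φ)⁻¹ with hμ
  obtain ⟨hfin, hcard⟩ := sl_card (p := p) (F := kk (vp p)) (Λ := (k →+ ZMod p)) LA.nsmul_dual (sMul μ)
  refine ⟨{T : (k →+ ZMod p) →+ kk (vp p) // ∀ l, T l ^ p = T (sMul μ l)}, hfin,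
    fun b => if h : IsZf p ζ ψ b then ⟨TT hζ1 b h.2, TT_semilinear hζ1 hψ h.1 h.2 hφ⟩
      else ⟨0, fun l => by simp [hpp.ne_zero]⟩, hcard.trans (LA.card_dual hk).le, ?_⟩
  intro b b' hb hb' hΘ
  dsimp only at hΘ
  rw [dif_pos hb, dif_pos hb', Subtype.mk.injEq] at hΘ
  -- step 1
  have h1 : ∀ l : k →+ ZMod p, ∃ i : ZMod p, ∀ σ : ↥(Ip p),
      l (b (iD p σ)) - l (b' (iD p σ)) = (chi p (σ : GQ) - 1) * i := by
    intro l
    have h2 := DFunLike.congr_fun hΘ l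
    rw [TT_eq hζ1 b hb.2 l (xl_spec hζ1 b hb.2 l), TT_eq hζ1 b' hb'.2 l (xl_spec hζ1 b' hb'.2 l),
      rs_eq_iff] at h2
    exact (xl_spec hζ1 b hb.2 l).sub_cob hp2 hζ (xl_spec hζ1 b' hb'.2 l) h2
  obtain ⟨σ₀, hσ₀⟩ := exists_chi_ne_one (p := p) hp2
  have hω₀ : (om p (σ₀ : GQ) : k) - 1 ≠ 0 := by
    intro h
    exact hσ₀ ((cast_val_eq_one_iff (k := k) _).1 (sub_eq_zero.1 h))
  set d : ↥(Dp p) → k := fun σ => b σ - b' σ with hd
  have hd1 : ∀ σ τ, d (σ * τ) = (ψ σ : k) * d τ + d σ := by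
    intro σ τ
    simp only [hd, hb.1, hb'.1]
    ring
  set y : k := d (iD p σ₀) / (om p (σ₀ : GQ) - 1) with hy
  have h3 : ∀ σ : ↥(Ip p), d (iD p σ) = (om p (σ : GQ) - 1) * y := by
    intro σ
    by_contra hne
    have hz : d (iD p σ) - (om p (σ : GQ) - 1) * y ∉ (⊥ : AddSubgroup k) := by
      rw [AddSubgroup.mem_bot, sub_eq_zero]
      exact hne
    obtain ⟨l, -, hl⟩ := LA.exists_separating hk ⊥ hz
    obtain ⟨i, hi⟩ := h1 l
    apply hl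
    have h4 : ∀ (τ : ↥(Ip p)) (z : k), l ((om p (τ : GQ) - 1) * z) = (chi p (τ : GQ) - 1) * l z :=
      fun τ z => l_om_mul l _ z
    have h5 : l y = i := by
      have h6 := h4 σ₀ y
      have h7 : (om p (σ₀ : GQ) - 1) * y = d (iD p σ₀) := by rw [hy]; field_simp
      rw [h7, hd, map_sub, hi σ₀] at h6
      exact (mul_left_cancel₀ (sub_ne_zero.2 hσ₀) h6).symm
    rw [map_sub, h4, h5, hd, map_sub, hi σ, sub_self]
  refine ⟨y, fun τ => ?_⟩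
  set b'' : ↥(Dp p) → k := fun σ => d σ - ((ψ σ : k) - 1) * y with hb''
  have hb1 : ∀ σ τ, b'' (σ * τ) = (ψ σ : k) * b'' τ + b'' σ := by
    intro σ τ
    simp only [hb'', hd1, map_mul, Units.val_mul]
    ring
  have hb0 : ∀ σ : ↥(Ip p), b'' (iD p σ) = 0 := by
    intro σ
    simp only [hb'', h3 σ, hψ σ, sub_self]
  have e1 : iD p σ₀ * τ = τ * iD p ⟨(τ : GQ)⁻¹ * (σ₀ : GQ) * (τ : GQ), conj_mem_Ip τ.2 σ₀⟩ := by
    apply Subtype.ext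
    show (σ₀ : GQ) * (τ : GQ) = (τ : GQ) * ((τ : GQ)⁻¹ * (σ₀ : GQ) * (τ : GQ))
    group
  have h8 := hb1 (iD p σ₀) τ
  rw [e1, hb1, hb0, hb0, mul_zero, zero_add, add_zero, hψ] at h8
  have h9 : (om p (σ₀ : GQ) - 1) * b'' τ = 0 := by rw [sub_mul, one_mul, ← h8, sub_self]
  have h10 := (mul_eq_zero.1 h9).resolve_left hω₀
  exact sub_eq_zero.1 h10

end Fermat.Agent.S56.Flat.FR
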