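import Fermat.Agent.S56.Flat.FR.PR
import Fermat.Agent.S55.E.Chi

/-!
# S56 / FLAT / FR : units of `K0` modulo `p`-th powers       keys `S56/FR-KUM-A` (int, exists_KT, add, neg, cob, GT_of_zero, frob), `S56/FR-KUM-B` (cob_of_GT)

`v = vp p`, `I = Ip p`, `K0 = Qb^I`, `χ = cycloChar p`.   `KT p ζ f x` : `∃ W ≡ 1 (mod 𝔪)`, `σ W = ζ^(f σ) W` on `I`, `W^p = 1 + p x`.
API: `S05/Defs` (`RVal`), `S55/B/Padic` (`GT_of_mem_Iq`, `pres_Dq`, `wq_q`), `S33/Val/Binom`, `S33/Val/Cyc` (`w_int_of_fixed`, `exists_fixed_congr`, `w_pi`, `GT_pi`), `E.cycloChar_spec`.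

* `KT.fixed`, `KT.int` : `x = (W^p - 1)/p` is fixed by `I` (`σ (W^p) = ζ^(p f) W^p = W^p`); `W ≡ 1 ⟹ v (W^p - 1) > 0`, an integer (`w_int_of_fixed`), so `≥ 1`.
* `exists_KT` : `W` a unit; `exists_fixed_congr` gives `t ∈ K0`, `t ≡ W`; `t` is a unit; `W / t`.
* `KT.add` : `W W'`.   `KT.neg` : `W⁻¹`, `x' = - x / (1 + p x)`, `x + x' = p x² / (1 + p x)`.   `KT.cob` : `W = ζ ^ i.val` (`cycAux_GT`), `σ ζ = ζ ^ χ σ`.
* `KT.GT_of_zero` : `W ∈ K0`, `v (W - 1) > 0` so `≥ 1`; `GE_pow_p_sub_one` : `v (W^p - 1) ≥ 2`.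
* `KT.frob` : apply `φ` : `W' = φ W`; `(φ σ φ⁻¹) (φ W) = φ (ζ ^ f σ) φ W = ζ ^ (χ φ * f σ) φ W`; `pres_Dq`.
* `KT.cob_of_GT` : `x ∈ K0`, `v x > 0 ⟹ v x ≥ 1`, `v (W^p - 1) ≥ 2 > p/(p-1)`.  `GE_sub_one_of_pow` : `W = 1 + ϖ h`, `ϖ = ζ - 1`, `h` integral.  `GT_one_add_pi_pow` (with `w_pi`, `GT_pi`):
  `v (ϖ^p (h^p - h)) > p/(p-1)`, so `v (h^p - h) > 0`; in the residue field `kk v` (char `p`) `h̄^p = h̄ ⟹ h̄ = j̄` for some `j : ℕ` (`Subfield.mem_bot_iff_pow_eq_self`).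
  `W₁ := W * ζ^(p - j)…` (or `W / ζ^j`): `W₁ - 1 = (1 + ϖ h - (1 + ϖ)^j)/ζ^j`, `(1 + ϖ)^j ≡ 1 + j ϖ (mod ϖ²)`, so `v (W₁ - 1) > 1/(p-1)`.
  For `σ ∈ I`: `σ W₁ = ζ^e W₁`; `σ W₁ - W₁ = σ (W₁ - 1) - (W₁ - 1)` has `v > 1/(p-1)` (`pres_Dq`), while `v ((ζ^e - 1) W₁) = 1/(p-1)` if `ζ^e ≠ 1` (`w_pi` for the primitive root `ζ^e`).
  So `σ W₁ = W₁`, `σ W = ζ^(j χ σ) W₁ = ζ^(j (χ σ - 1)) W` and `f σ = (χ σ - 1) j` (`zp_inj`).
-/

set_option autoImplicit false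

noncomputable section

namespace Fermat.Agent.S56.Flat.FR

open Fermat.Agent.S55 Fermat.Agent.S55.B Fermat.Agent.S05 ExtCitation Fermat.Agent.S56 Fermat.Agent.S33

variable (p : ℕ) [Fact p.Prime]

/-- the cyclotomic character in `ZMod p` -/
abbrev chi (σ : GQ) : ZMod p := ((cycloChar p σ : (ZMod p)ˣ) : ZMod p)

/-- `1 + p x` is the `p`-th power of a Kummer generator `W ≡ 1` of `f` -/
def KT (ζ : Qb) (f : ↥(Ip p) → ZMod p) (x : Qb) : Prop :=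
  ∃ W : Qb, (vp p).GT (W - 1) 0 ∧ (∀ σ : ↥(Ip p), (σ : GQ) W = ζ ^ (f σ).val * W) ∧ W ^ p = 1 + p * x

variable {p} {ζ : Qb}

theorem conj_mem_Ip {φ : GQ} (hφ : φ ∈ Dp p) (σ : ↥(Ip p)) : φ⁻¹ * (σ : GQ) * φ ∈ Ip p := by
  have hφ' : φ⁻¹ ∈ Dp p := (Dp p).inv_mem hφ
  refine mem_Iq_of_GT (pPrime p) ((Dp p).mul_mem ((Dp p).mul_mem hφ' (Ip_le_Dp p σ.2)) hφ) ?_
  intro x hx
  have h1 : (vp p).GE (φ x) 0 := (pres_Dq (pPrime p)).GE hφ hx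
  have h2 := GT_of_mem_Iq (pPrime p) σ.2 h1
  have h3 := (pres_Dq (pPrime p)).GT hφ' h2
  have e : (φ⁻¹ * (σ : GQ) * φ) x - x = φ⁻¹ ((σ : GQ) (φ x) - φ x) := by
    rw [map_sub]
    have : φ⁻¹ (φ x) = x := by
      have : (φ⁻¹ * φ) x = x := by rw [inv_mul_cancel]; rfl
      exact this
    rw [this]
    rfl
  rw [e]
  exact h3

theorem kumAux_p_ne : ((p : ℕ) : Qb) ≠ 0 := by exact_mod_cast (Fact.out : p.Prime).ne_zero

theorem kumAux_EQ_p : (vp p).EQ ((p : ℕ) : Qb) 1 := ⟨kumAux_p_ne, wq_q (pPrime p)⟩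

theorem kumAux_pow_fixed (hζ : ζ ^ p = 1) {W : Qb} {a : ℕ} {σ : GQ} (h : σ W = ζ ^ a * W) :
    σ (W ^ p) = W ^ p := by
  rw [map_pow, h, mul_pow, ← pow_mul, mul_comm a p, pow_mul, hζ, one_pow, one_mul]

theorem kumAux_GT_pow {W : Qb} (h : (vp p).GT (W - 1) 0) (n : ℕ) : (vp p).GT (W ^ n - 1) 0 := by
  have hW : (vp p).GE W 0 := (EQ_zero_of_GT_sub_one h).GE le_rfl
  rw [← geom_sum_mul]
  have h1 : (vp p).GE (∑ i ∈ Finset.range n, W ^ i) 0 :=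
    GE_sum _ _ _ _ fun i _ => by simpa using hW.pow i
  simpa using h1.mul_GT h

theorem KT.fixed (hζ : ζ ^ p = 1) {f : ↥(Ip p) → ZMod p} {x : Qb} (h : KT p ζ f x) :
    ∀ σ ∈ Ip p, σ x = x := by
  obtain ⟨W, -, h2, h3⟩ := h
  intro σ hσ
  have h4 := kumAux_pow_fixed hζ (h2 ⟨σ, hσ⟩)
  rw [h3] at h4
  simp only [map_add, map_one, map_mul, map_natCast] at h4
  exact mul_left_cancel₀ (kumAux_p_ne (p := p)) (add_left_cancel h4)

/-- an element of `K0` of positive valuation has valuation `≥ 1` -/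
theorem kumAux_GE_one {a : Qb} (ha : ∀ σ ∈ Ip p, σ a = a) (h : (vp p).GT a 0) : (vp p).GE a 1 := by
  by_cases h0 : a = 0
  · exact Or.inl h0
  · obtain ⟨n, hn⟩ := w_int_of_fixed (pPrime p) ha h0
    right
    have h1 := h.lt_w h0
    rw [hn] at h1 ⊢
    have : (0 : ℤ) < n := by exact_mod_cast h1
    exact_mod_cast this

theorem KT.int (hζ : ζ ^ p = 1) {f : ↥(Ip p) → ZMod p} {x : Qb} (h : KT p ζ f x) : (vp p).GE x 0 := by
  have hfix := h.fixed hζ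
  obtain ⟨W, h1, h2, h3⟩ := h
  have h4 : (vp p).GT ((p : Qb) * x) 0 := by
    have := kumAux_GT_pow h1 p
    rwa [h3, add_sub_cancel_left] at this
  have h5 : (vp p).GE ((p : Qb) * x) 1 := by
    refine kumAux_GE_one (fun σ hσ => ?_) h4
    rw [map_mul, map_natCast, hfix σ hσ]
  have := RVal.GE.of_mul_eq_left (mul_comm x (p : Qb)) (kumAux_EQ_p (p := p)) h5
  simpa using this

theorem exists_KT (hζ : ζ ^ p = 1) {f : ↥(Ip p) → ZMod p} (h : PR1 p ζ f) : ∃ x, KT p ζ f x := by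
  obtain ⟨W, hW, h1⟩ := h
  obtain ⟨t, ht, -, htW⟩ := exists_fixed_congr (pPrime p) (hW.GE le_rfl)
  have ht0 : (vp p).EQ t 0 := by
    have := hW.sub_GT htW
    rwa [sub_sub_cancel] at this
  have htne := ht0.1
  refine ⟨((W / t) ^ p - 1) / p, W / t, ?_, fun σ => ?_, ?_⟩
  · have e : W / t - 1 = (W - t) * t⁻¹ := by field_simp
    rw [e]
    simpa using htW.mul_GE (ht0.inv.GE le_rfl)
  · rw [map_div₀, h1, ht _ σ.2, mul_div_assoc]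
  · have := kumAux_p_ne (p := p)
    field_simp
    ring

theorem KT.add (hζ : ζ ^ p = 1) {f f' : ↥(Ip p) → ZMod p} {x x' : Qb} (h : KT p ζ f x) (h' : KT p ζ f' x') :
    KT p ζ (f + f') (x + x' + p * x * x') := by
  obtain ⟨W, h1, h2, h3⟩ := h
  obtain ⟨W', h1', h2', h3'⟩ := h'
  refine ⟨W * W', GT_mul_sub_one le_rfl h1 h1', fun σ => ?_, ?_⟩
  · rw [map_mul, h2, h2', Pi.add_apply, zp_add hζ]
    ring
  · rw [mul_pow, h3, h3']
    ring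

theorem KT.neg (hζ : ζ ^ p = 1) {f : ↥(Ip p) → ZMod p} {x : Qb} (h : KT p ζ f x) :
    ∃ x', KT p ζ (-f) x' ∧ (vp p).GT (x + x') 0 := by
  have hint := h.int hζ
  obtain ⟨W, h1, h2, h3⟩ := h
  have hW : (vp p).EQ W 0 := EQ_zero_of_GT_sub_one h1
  have hWp : (vp p).EQ (1 + (p : Qb) * x) 0 := by
    rw [← h3]
    simpa using hW.pow p
  have hne := hWp.1
  refine ⟨-x / (1 + p * x), ⟨W⁻¹, GT_inv_sub_one le_rfl h1, fun σ => ?_, ?_⟩, ?_⟩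
  · have h0 : ζ ^ (f σ).val ≠ 0 := fun h => by
      have := zp_neg hζ (f σ)
      rw [h, mul_zero] at this
      exact zero_ne_one this
    rw [map_inv₀, h2, Pi.neg_apply, mul_inv, eq_comm]
    congr 1
    exact eq_inv_of_mul_eq_one_left (zp_neg hζ (f σ))
  · rw [inv_pow, h3]
    field_simp
    ring
  · have e : x + -x / (1 + p * x) = (p : Qb) * (x * x * (1 + p * x)⁻¹) := by
      rw [div_eq_mul_inv]
      have h7 : (1 + (p : Qb) * x) * (1 + p * x)⁻¹ = 1 := mul_inv_cancel₀ hne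
      linear_combination (-x) * h7
    rw [e]
    have h5 := ((hint.mul hint).mul (hWp.inv.GE le_rfl))
    have h6 := ((kumAux_EQ_p (p := p)).GT (b := 0) one_pos).mul_GE h5
    simpa using h6

theorem kumAux_gal (hζ : ζ ^ p = 1) (σ : GQ) (a : ZMod p) :
    σ (ζ ^ a.val) = ζ ^ (chi p σ * a).val := by
  have h1 : (ζ ^ a.val) ^ p = 1 := by rw [← pow_mul, mul_comm, pow_mul, hζ, one_pow]
  rw [E.cycloChar_spec p σ h1, mul_comm, zp_mul hζ]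

theorem KT.cob (hζ : ζ ^ p = 1) (i : ZMod p) : KT p ζ (fun σ => (chi p σ - 1) * i) 0 := by
  have h1 : (ζ ^ i.val) ^ p = 1 := by rw [← pow_mul, mul_comm, pow_mul, hζ, one_pow]
  refine ⟨ζ ^ i.val, cycAux_GT (pPrime p) h1, fun σ => ?_, ?_⟩
  · rw [kumAux_gal hζ, ← zp_add hζ]
    congr 2
    ring
  · rw [h1, mul_zero, add_zero]

theorem KT.GT_of_zero {x : Qb} (h : KT p ζ 0 x) : (vp p).GT x 0 := by
  obtain ⟨W, h1, h2, h3⟩ := h
  have hfix : ∀ σ ∈ Ip p, σ (W - 1) = W - 1 := by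
    intro σ hσ
    have := h2 ⟨σ, hσ⟩
    rw [Pi.zero_apply, zp_zero, one_mul] at this
    rw [map_sub, map_one]
    exact congrArg (· - 1) this
  have h4 := kumAux_GE_one hfix h1
  have h5 := GE_pow_p_sub_one (Fact.out : p.Prime) (wq_q (pPrime p)) zero_le_one h4
  have h6 : (vp p).GE ((p : Qb) * x) 2 := by
    rw [h3, add_sub_cancel_left] at h5
    refine h5.mono ?_
    have : (2 : ℝ) ≤ p := by exact_mod_cast (Fact.out : p.Prime).two_le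
    refine le_min (by norm_num) (by linarith)
  have := RVal.GE.of_mul_eq_left (mul_comm x (p : Qb)) (kumAux_EQ_p (p := p)) h6
  exact this.GT (by norm_num)

theorem KT.frob (hζ : ζ ^ p = 1) {φ : GQ} (hφ : φ ∈ Dp p) {f : ↥(Ip p) → ZMod p} {x : Qb} (h : KT p ζ f x) :
    KT p ζ (fun σ => chi p φ * f ⟨φ⁻¹ * (σ : GQ) * φ, conj_mem_Ip hφ σ⟩) (φ x) := by
  obtain ⟨W, h1, h2, h3⟩ := h
  refine ⟨φ W, ?_, fun σ => ?_, ?_⟩
  · have := (pres_Dq (pPrime p)).GT hφ h1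
    rwa [map_sub, map_one] at this
  · have h4 := h2 ⟨φ⁻¹ * (σ : GQ) * φ, conj_mem_Ip hφ σ⟩
    have h5 := congrArg φ h4
    rw [map_mul, kumAux_gal hζ] at h5
    rw [← h5]
    have : (φ * (φ⁻¹ * (σ : GQ) * φ)) W = (σ : GQ) (φ W) := by
      rw [← mul_assoc, ← mul_assoc, mul_inv_cancel, one_mul]
      rfl
    exact this.symm
  · rw [← map_pow, h3]
    simp only [map_add, map_one, map_mul, map_natCast]

end Fermat.Agent.S56.Flat.FR
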