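import Fermat.Agent.S56.Flat.FR.Kum

/-!
# S56 / FLAT / FR : `KT.cob_of_GT`       key `S56/FR-KUM-B` (helper8).   Proof: see the header of `Kum.lean`.
-/

set_option autoImplicit false

noncomputable section

namespace Fermat.Agent.S56.Flat.FR

open Fermat.Agent.S55 Fermat.Agent.S55.B Fermat.Agent.S05 ExtCitation Fermat.Agent.S56 Fermat.Agent.S33

variable {p : ℕ} [Fact p.Prime] {ζ : Qb}

/-- `x^p ≡ x` implies `x ≡ i` for some `i : ZMod p` -/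
theorem exists_zmod_congr {h : Qb} (hh : (vp p).GE h 0) (hp : (vp p).GT (h ^ p - h) 0) :
    ∃ i : ZMod p, (vp p).GT (h - (i.val : Qb)) 0 := by
  have : CharP (kk (vp p)) p := charP_kk (vp p) (Fact.out : p.Prime) (EQ_p.GT (by norm_num))
  have h1 : rs (vp p) ⟨h, hh⟩ ^ p = rs (vp p) ⟨h, hh⟩ := by
    rw [← map_pow, rs_eq_iff]
    exact hp
  have h2 := (Subfield.mem_bot_iff_pow_eq_self (kk (vp p)) p).2 h1
  rw [← ZMod.fieldRange_castHom_eq_bot p] at h2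
  obtain ⟨i, hi⟩ := h2
  refine ⟨i, ?_⟩
  have h3 : rs (vp p) ⟨h, hh⟩ = rs (vp p) ⟨(i.val : Qb), RVal.GE_natCast _⟩ := by
    rw [← hi]
    have : (⟨(i.val : Qb), RVal.GE_natCast _⟩ : OO (vp p)) = ((i.val : ℕ) : OO (vp p)) :=
      Subtype.ext (SubringClass.coe_natCast (OO (vp p)) i.val).symm
    rw [this, map_natCast, ZMod.castHom_apply, ZMod.natCast_val]
  exact (rs_eq_iff _ _ _).1 h3


/-- `(ζ^j - 1)/(ζ - 1) ≡ j` -/
theorem GT_geom (hζ : IsPrimitiveRoot ζ p) (j : ℕ) :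
    (vp p).GT ((ζ ^ j - 1) - (ζ - 1) * (j : Qb)) (1 / ((p : ℝ) - 1)) := by
  have hπ : (vp p).EQ (ζ - 1) (1 / ((p : ℝ) - 1)) := w_pi (pPrime p) hζ
  have hζ0 : (vp p).GE ζ 0 := by
    have := (cycAux_GT (pPrime p) hζ.pow_eq_one).GE (le_refl 0)
    have h2 := this.add (RVal.EQ_one.GE le_rfl)
    simpa using h2
  have e : (ζ ^ j - 1) - (ζ - 1) * (j : Qb) = (ζ - 1) * ∑ i ∈ Finset.range j, (ζ ^ i - 1) := by
    rw [Finset.sum_sub_distrib, mul_sub, mul_comm (ζ - 1) (∑ i ∈ Finset.range j, ζ ^ i), geom_sum_mul]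
    simp
  rw [e]
  have h1 : (vp p).GT (∑ i ∈ Finset.range j, (ζ ^ i - 1)) 0 := by
    refine GT_sum _ _ _ _ fun i _ => ?_
    have h2 : (ζ ^ i) ^ p = 1 := by rw [← pow_mul, mul_comm, pow_mul, hζ.pow_eq_one, one_pow]
    exact cycAux_GT (pPrime p) h2
  simpa using (hπ.GE le_rfl).mul_GT h1

theorem KT.cob_of_GT (hp2 : p ≠ 2) (hζ : IsPrimitiveRoot ζ p) {f : ↥(Ip p) → ZMod p} {x : Qb}
    (h : KT p ζ f x) (hx : (vp p).GT x 0) : ∃ i : ZMod p, ∀ σ : ↥(Ip p), f σ = (chi p σ - 1) * i := by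
  have hfix := h.fixed hζ.pow_eq_one
  obtain ⟨W, hW1, hσ, hWp⟩ := h
  have hpp : p.Prime := Fact.out
  have hp3 : (3 : ℝ) ≤ p := by
    have : 3 ≤ p := by
      have := hpp.two_le
      omega
    exact_mod_cast this
  have hp1 : (0 : ℝ) < (p : ℝ) - 1 := by linarith
  have hlt : (p : ℝ) / ((p : ℝ) - 1) < 2 := by
    rw [div_lt_iff₀ hp1]; linarith
  have hx1 := GE_one_of_fixed hfix hx
  have hW2 : (vp p).GE (W ^ p - 1) 2 := by
    have e : W ^ p - 1 = p * x := by rw [hWp]; ring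
    rw [e]
    have := (EQ_p (p := p)).GE le_rfl |>.mul hx1
    norm_num at this
    exact this
  have hπ : (vp p).EQ (ζ - 1) (1 / ((p : ℝ) - 1)) := w_pi (pPrime p) hζ
  have hW3 : (vp p).GE (W - 1) (1 / ((p : ℝ) - 1)) :=
    GE_sub_one_of_pow hpp vp_p hW1 (hW2.mono hlt.le)
  set ϖ := ζ - 1 with hϖ
  have hϖ0 : ϖ ≠ 0 := hπ.1
  set hh := (W - 1) / ϖ with hhdef
  have hWeq : W = 1 + ϖ * hh := by rw [hhdef]; field_simp; ring
  have hh0 : (vp p).GE hh 0 := by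
    have : hh * ϖ = W - 1 := by rw [hhdef]; field_simp
    have h2 := RVal.GE.of_mul_eq_left this hπ hW3
    simpa using h2
  have h5 := GT_one_add_pi_pow hpp hp2 vp_p hπ (GT_pi (pPrime p) hp2 hζ) hh0
  rw [← hWeq] at h5
  have h6 : (vp p).GT (ϖ ^ p * (hh ^ p - hh)) ((p : ℝ) / ((p : ℝ) - 1)) := by
    have e : ϖ ^ p * (hh ^ p - hh) = (W ^ p - 1) - (W ^ p - 1 - ϖ ^ p * (hh ^ p - hh)) := by ring
    rw [e]
    exact (hW2.GT hlt).sub h5
  have h7 : (vp p).GT (hh ^ p - hh) 0 := by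
    have hπp : (vp p).EQ (ϖ ^ p) ((p : ℝ) / ((p : ℝ) - 1)) := by
      have := hπ.pow p
      rwa [mul_one_div] at this
    have h8 := RVal.GT.of_mul_eq_left (mul_comm (hh ^ p - hh) (ϖ ^ p)) hπp h6
    simpa using h8
  obtain ⟨i, hi⟩ := exists_zmod_congr hh0 h7
  refine ⟨i, fun σ => ?_⟩
  -- `W₁ = W / ζ^i`
  have hz0 : (vp p).EQ (ζ ^ i.val) 0 := by
    have h2 : (ζ ^ i.val) ^ p = 1 := by rw [← pow_mul, mul_comm, pow_mul, hζ.pow_eq_one, one_pow]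
    exact EQ_zero_of_GT_sub_one (cycAux_GT (pPrime p) h2)
  have hW4 : (vp p).GT (W - ζ ^ i.val) (1 / ((p : ℝ) - 1)) := by
    have e : W - ζ ^ i.val = ϖ * (hh - (i.val : Qb)) - ((ζ ^ i.val - 1) - (ζ - 1) * (i.val : Qb)) := by
      rw [hWeq]; ring
    rw [e]
    refine RVal.GT.sub ?_ (GT_geom hζ i.val)
    simpa using (hπ.GE le_rfl).mul_GT hi
  set W1 := W / ζ ^ i.val with hW1def
  have hW5 : (vp p).GT (W1 - 1) (1 / ((p : ℝ) - 1)) := by
    have e : (W1 - 1) * ζ ^ i.val = W - ζ ^ i.val := by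
      rw [hW1def]; field_simp [hz0.1]
    have h8 := RVal.GT.of_mul_eq_left e hz0 hW4
    simpa using h8
  have hW6 : (vp p).EQ W1 0 := EQ_zero_of_GT_sub_one (hW5.mono (by positivity))
  set e := f σ - (chi p σ - 1) * i with he
  have hσW1 : (σ : GQ) W1 = ζ ^ e.val * W1 := by
    have h1 : (σ : GQ) (ζ ^ i.val) = ζ ^ (chi p σ * i).val := by
      rw [map_pow, E.cycloChar_spec p (σ : GQ) hζ.pow_eq_one, zp_mul hζ.pow_eq_one]
    have h2 : ζ ^ (chi p σ * i).val ≠ 0 := pow_ne_zero _ (hζ.ne_zero hpp.ne_zero)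
    rw [hW1def, map_div₀, hσ, h1, div_eq_iff h2]
    have h3 : ζ ^ (f σ).val * ζ ^ i.val = ζ ^ e.val * ζ ^ (chi p σ * i).val := by
      rw [← zp_add hζ.pow_eq_one, ← zp_add hζ.pow_eq_one]
      congr 2
      rw [he]; ring
    field_simp [hz0.1]
    linear_combination W * h3
  by_contra hne
  have he0 : e ≠ 0 := fun h0 => hne (sub_eq_zero.1 (he ▸ h0))
  have hprim : IsPrimitiveRoot (ζ ^ e.val) p := by
    refine hζ.pow_of_coprime _ ?_
    refine (Nat.Coprime.symm ?_)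
    rw [hpp.coprime_iff_not_dvd]
    intro hdvd
    have := Nat.eq_zero_of_dvd_of_lt hdvd (ZMod.val_lt e)
    exact he0 ((ZMod.val_eq_zero e).1 this)
  have h9 : (vp p).EQ ((ζ ^ e.val - 1) * W1) (1 / ((p : ℝ) - 1)) := by
    simpa using (w_pi (pPrime p) hprim).mul hW6
  have h10 : (vp p).GT ((ζ ^ e.val - 1) * W1) (1 / ((p : ℝ) - 1)) := by
    have e2 : (ζ ^ e.val - 1) * W1 = (σ : GQ) (W1 - 1) - (W1 - 1) := by
      rw [map_sub, map_one, hσW1]; ring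
    rw [e2]
    refine RVal.GT.sub ?_ hW5
    rcases hW5 with h0 | h0
    · rw [h0, map_zero]; exact RVal.GT_zero _
    · exact Or.inr (by rw [pres_Dq (pPrime p) _ (Ip_le_Dp p σ.2)]; exact h0)
  exact absurd (h10.lt_w h9.1) (by rw [h9.2]; exact lt_irrefl _)

end Fermat.Agent.S56.Flat.FR
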