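import Fermat.Agent.S56.Flat.FR.Defs

/-!
# S56 / FLAT / FR : elementary properties of `PR1`; the groups `ZZ`, `LL` of good cocycles / classes   (helper8)
-/

set_option autoImplicit false

noncomputable section

namespace Fermat.Agent.S56.Flat.FR

open Fermat.Agent.S53 (M2)
open Fermat.Agent.S55 Fermat.Agent.S55.B Fermat.Agent.S05 ExtCitation Fermat.Agent.S56

variable {p : ℕ} [Fact p.Prime] {ζ : Qb}

theorem zp_add (hζ : ζ ^ p = 1) (a b : ZMod p) : ζ ^ (a + b).val = ζ ^ a.val * ζ ^ b.val := by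
  rw [← pow_add, ZMod.val_add, ← pow_eq_pow_mod _ hζ]

theorem zp_zero : ζ ^ (0 : ZMod p).val = 1 := by rw [ZMod.val_zero, pow_zero]

theorem zp_neg (hζ : ζ ^ p = 1) (a : ZMod p) : ζ ^ (-a).val * ζ ^ a.val = 1 := by
  rw [← zp_add hζ, neg_add_cancel, zp_zero]

theorem zp_mul (hζ : ζ ^ p = 1) (a b : ZMod p) : ζ ^ (a * b).val = (ζ ^ a.val) ^ b.val := by
  rw [← pow_mul, ZMod.val_mul, ← pow_eq_pow_mod _ hζ]

theorem zp_inj (hζ : IsPrimitiveRoot ζ p) {a b : ZMod p} (h : ζ ^ a.val = ζ ^ b.val) : a = b :=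
  ZMod.val_injective p (hζ.pow_inj (ZMod.val_lt a) (ZMod.val_lt b) h)

theorem PR1.zero : PR1 p ζ 0 :=
  ⟨1, RVal.EQ_one, fun σ => by rw [map_one, Pi.zero_apply, zp_zero, one_mul]⟩

theorem PR1.add (hζ : ζ ^ p = 1) {f f' : ↥(Ip p) → ZMod p} (h : PR1 p ζ f) (h' : PR1 p ζ f') :
    PR1 p ζ (f + f') := by
  obtain ⟨W, hW, h1⟩ := h
  obtain ⟨W', hW', h2⟩ := h'
  refine ⟨W * W', by simpa using hW.mul hW', fun σ => ?_⟩
  rw [map_mul, h1, h2, Pi.add_apply, zp_add hζ]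
  ring

theorem PR1.neg (hζ : ζ ^ p = 1) {f : ↥(Ip p) → ZMod p} (h : PR1 p ζ f) : PR1 p ζ (-f) := by
  obtain ⟨W, hW, h1⟩ := h
  refine ⟨W⁻¹, by simpa using hW.inv, fun σ => ?_⟩
  have h0 : ζ ^ (f σ).val ≠ 0 := fun h => by
    have := zp_neg hζ (f σ)
    rw [h, mul_zero] at this
    exact zero_ne_one this
  rw [map_inv₀, h1, Pi.neg_apply, mul_inv, eq_comm]
  congr 1
  exact eq_inv_of_mul_eq_one_left (zp_neg hζ (f σ))

theorem PR1.congr {f f' : ↥(Ip p) → ZMod p} (h : PR1 p ζ f) (e : ∀ σ, f σ = f' σ) : PR1 p ζ f' := by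
  have : f = f' := funext e
  rwa [← this]

/-- elements of `K0` of positive valuation have valuation `≥ 1` -/
theorem GE_one_of_fixed {x : Qb} (hfix : ∀ σ ∈ Ip p, σ x = x) (hx : (vp p).GT x 0) : (vp p).GE x 1 := by
  rcases eq_or_ne x 0 with rfl | h0
  · exact RVal.GE_zero 1
  · obtain ⟨n, hn⟩ := S33.w_int_of_fixed (pPrime p) hfix h0
    have h1 := hx.lt_w h0
    rw [hn] at h1
    have h2 : (0 : ℤ) < n := by exact_mod_cast h1
    refine Or.inr ?_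
    rw [hn]
    exact_mod_cast h2

theorem vp_p : (vp p).w (p : Qb) = 1 := wq_q (pPrime p)

theorem EQ_p : (vp p).EQ (p : Qb) 1 := ⟨q_ne_zero (pPrime p), vp_p⟩

variable {k : Type} [Field k]

variable (p ζ) in
/-- the good cocycles -/
def ZZ (hζ : ζ ^ p = 1) (r : GQ →* GL (Fin 2) k) :
    AddSubgroup ↥(Z1 (lvlD (pPrime p)) (adRhoD r (pPrime p))) where
  carrier := {c | (∀ σ, ((c : ↥(Dp p) → Ad0 k) σ : M2 k) 1 0 = 0) ∧
    (∀ σ : ↥(Ip p), ((c : ↥(Dp p) → Ad0 k) (iD p σ) : M2 k) 0 0 = 0) ∧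
    ∀ l : k →+ ZMod p, PR1 p ζ (fun σ => l (((c : ↥(Dp p) → Ad0 k) (iD p σ) : M2 k) 0 1))}
  add_mem' := by
    rintro a b ⟨h1, h2, h3⟩ ⟨h1', h2', h3'⟩
    refine ⟨fun σ => ?_, fun σ => ?_, fun l => ?_⟩
    · show ((a : ↥(Dp p) → Ad0 k) σ : M2 k) 1 0 + ((b : ↥(Dp p) → Ad0 k) σ : M2 k) 1 0 = 0
      rw [h1, h1', add_zero]
    · show ((a : ↥(Dp p) → Ad0 k) (iD p σ) : M2 k) 0 0 + ((b : ↥(Dp p) → Ad0 k) (iD p σ) : M2 k) 0 0 = 0
      rw [h2, h2', add_zero]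
    · refine ((h3 l).add hζ (h3' l)).congr fun σ => ?_
      exact (map_add l _ _).symm
  zero_mem' := ⟨fun _ => rfl, fun _ => rfl, fun l => PR1.zero.congr fun σ => (map_zero l).symm⟩
  neg_mem' := by
    rintro a ⟨h1, h2, h3⟩
    refine ⟨fun σ => ?_, fun σ => ?_, fun l => ?_⟩
    · show -((a : ↥(Dp p) → Ad0 k) σ : M2 k) 1 0 = 0
      rw [h1, neg_zero]
    · show -((a : ↥(Dp p) → Ad0 k) (iD p σ) : M2 k) 0 0 = 0
      rw [h2, neg_zero]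
    · refine ((h3 l).neg hζ).congr fun σ => ?_
      exact (map_neg l _).symm

variable (p ζ) in
/-- the good classes -/
def LL (hζ : ζ ^ p = 1) (r : GQ →* GL (Fin 2) k) :
    AddSubgroup (H1 (lvlD (pPrime p)) (adRhoD r (pPrime p))) :=
  (ZZ p ζ hζ r).map (H1.mk (lvlD (pPrime p)) (adRhoD r (pPrime p)))

end Fermat.Agent.S56.Flat.FR
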