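import Fermat.Agent.S56.Flat.FR.Defs

/-!
# S56 / FLAT / FR : transport (R0)       keys `S56/FR-TRANS-A` (of_equiv, flatRes_conj, flatLift_conj, flatRes_of_rhoV, flatLift_of_rhoV), `S56/FR-TRANS-B` (conjCoc_mem, transport, card_H0_conj)

* `IsFlatMod.of_equiv` : compose the bijection `e` of `IsFlatMod` with the equivariant additive bijection.
* `flatRes_conj`, `flatLift_conj` : the bijection `v ↦ g v` (resp. `(v₀, v₁) ↦ (g v₀, g v₁)`); the new action is DEFINED by transport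
  (`σ ↦ e ∘ act σ ∘ e.symm`, a monoid hom), then its formula is checked: `g r0 g⁻¹ (g v) = g (r0 v)`, `(g c g⁻¹)(g r0 g⁻¹)(g v) = g (c r0 v)`.
* `flatLift_of_rhoV` : the bijection `(Fin 2 → DualNumber k) ≃+ K2 k × K2 k`, `v ↦ (fst ∘ v, snd ∘ v)`; `(liftMat r0 c σ).mulVec v` componentwise (`TrivSqZeroExt.fst_mul`, `snd_mul`, `Fin.sum_univ_two`).
* `conjCoc_mem` : `pp1_mem_Z1` with `r = id`, `φ = adOne g` (`IsHomAlong`: `g (r0 X r0⁻¹) g⁻¹ = (g r0 g⁻¹)(g X g⁻¹)(g r0 g⁻¹)⁻¹`).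
* `transport` : `Φ := H1c`-type map `H1map (LvlMap.id _) _ : H1 (lvlD q) (adRhoD r0 q) →+ H1 (lvlD q) (adRhoD (conjRep g r0) q)` induced by `adOne g`; it is INJECTIVE
  (if `adOne g ∘ c = d0 X'` then `c = d0 (adOne g⁻¹ X')`, and `LC1 c` is known); `L := L'.comap Φ`; `L → L'` injective so `Finite L`, `Nat.card L ≤ Nat.card L'`
  (`Nat.card_le_card_of_injective`); `Φ (loc1 [c]) = loc1 [conjCoc g c]` is `rfl`-like (both are classes of `σ ↦ adOne g (c σ)`).
* `card_H0_conj` : `adOne g⁻¹` maps `H0 (adRhoD (conjRep g r0) q)` injectively into `H0 (adRhoD r0 q)`; `Ad0 k` finite.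
-/

set_option autoImplicit false

noncomputable section

namespace Fermat.Agent.S56.Flat.FR

open Fermat.Agent.S53 (M2)
open Fermat.Agent.S55 Fermat.Agent.S55.B Fermat.Agent.S05 ExtCitation Fermat.Agent.S56

variable {p : ℕ} [Fact p.Prime] {k : Type} [Field k]

theorem isFlatMod_of_equiv {V V' : Type} [AddCommGroup V] [AddCommGroup V'] {act : GQ →* AddMonoid.End V}
    {act' : GQ →* AddMonoid.End V'} (e : V ≃+ V') (he : ∀ σ v, e (act σ v) = act' σ (e v))
    (h : IsFlatMod p V act) : IsFlatMod p V' act' := by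
  obtain ⟨H, i1, i2, h1, h2, h3, e0, ha, hb⟩ := h
  refine ⟨H, i1, i2, h1, h2, h3, e0.trans e.toEquiv, fun f g => ?_, fun σ f g hfg => ?_⟩
  · show e (e0 (f * g)) = e (e0 f) + e (e0 g)
    rw [ha, map_add]
  · show e (e0 g) = act' σ (e (e0 f))
    rw [hb σ f g hfg, he]

/-- transport of an action along an additive bijection -/
def transAct {V V' : Type} [AddCommGroup V] [AddCommGroup V'] (e : V ≃+ V')
    (act : GQ →* AddMonoid.End V) : GQ →* AddMonoid.End V' where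
  toFun σ := (e.toAddMonoidHom.comp (act σ)).comp e.symm.toAddMonoidHom
  map_one' := by
    ext v
    show e ((act 1) (e.symm v)) = v
    rw [map_one]
    exact e.apply_symm_apply v
  map_mul' σ τ := by
    ext v
    show e ((act (σ * τ)) (e.symm v)) = e (act σ (e.symm (e (act τ (e.symm v)))))
    rw [map_mul, e.symm_apply_apply]
    rfl

theorem transAct_apply {V V' : Type} [AddCommGroup V] [AddCommGroup V'] (e : V ≃+ V')
    (act : GQ →* AddMonoid.End V) (σ : GQ) (v : V') : transAct e act σ v = e (act σ (e.symm v)) := rfl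

theorem isFlatMod_transAct {V V' : Type} [AddCommGroup V] [AddCommGroup V'] (e : V ≃+ V')
    {act : GQ →* AddMonoid.End V} (h : IsFlatMod p V act) : IsFlatMod p V' (transAct e act) :=
  isFlatMod_of_equiv e (fun σ v => by rw [transAct_apply, e.symm_apply_apply]) h

theorem adOne_mul (a b : GL (Fin 2) k) (X : Ad0 k) : adOne (a * b) X = adOne a (adOne b X) := by
  have := (rhoAd (MonoidHom.id (GL (Fin 2) k))).map_mul a b
  exact congrArg (fun f : AddMonoid.End (Ad0 k) => f X) this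

theorem adOne_one (X : Ad0 k) : adOne (1 : GL (Fin 2) k) X = X := by
  have := (rhoAd (MonoidHom.id (GL (Fin 2) k))).map_one
  exact congrArg (fun f : AddMonoid.End (Ad0 k) => f X) this

theorem adOne_conj (g : GL (Fin 2) k) (r0 : GQ →* GL (Fin 2) k) (σ : GQ) (X : Ad0 k) :
    adOne g (adRho r0 σ X) = adRho (conjRep g r0) σ (adOne g X) := by
  show adOne g (adOne (r0 σ) X) = adOne (conjRep g r0 σ) (adOne g X)
  rw [← adOne_mul, ← adOne_mul, conjRep_apply, inv_mul_cancel_right]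

theorem adOne_conj' (g : GL (Fin 2) k) (r0 : GQ →* GL (Fin 2) k) (σ : GQ) (X : Ad0 k) :
    adOne g⁻¹ (adRho (conjRep g r0) σ X) = adRho r0 σ (adOne g⁻¹ X) := by
  show adOne g⁻¹ (adOne (conjRep g r0 σ) X) = adOne (r0 σ) (adOne g⁻¹ X)
  rw [← adOne_mul, ← adOne_mul, conjRep_apply]
  congr 2
  group

theorem adOne_inv_adOne (g : GL (Fin 2) k) (X : Ad0 k) : adOne g⁻¹ (adOne g X) = X := by
  rw [← adOne_mul, inv_mul_cancel, adOne_one]

theorem adOne_adOne_inv (g : GL (Fin 2) k) (X : Ad0 k) : adOne g (adOne g⁻¹ X) = X := by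
  rw [← adOne_mul, mul_inv_cancel, adOne_one]

/-- the conjugate cochain -/
def conjCoc (g : GL (Fin 2) k) (c : GQ → Ad0 k) : GQ → Ad0 k := fun σ => adOne g (c σ)

theorem conjCoc_mem (g : GL (Fin 2) k) (r0 : GQ →* GL (Fin 2) k) {c : GQ → Ad0 k}
    (hc : c ∈ Z1 lvlQ (adRho r0)) : conjCoc g c ∈ Z1 lvlQ (adRho (conjRep g r0)) :=
  pp1_mem_Z1 (ρB := adRho (conjRep g r0)) (φ := adOne g) (LvlMap.id lvlQ)
    (fun σ X => adOne_conj g r0 σ X) hc

/-- `v ↦ g v` -/
def gEquiv (g : GL (Fin 2) k) : K2 k ≃+ K2 k where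
  toFun v := (g : M2 k).mulVec v
  invFun v := ((g⁻¹ : GL (Fin 2) k) : M2 k).mulVec v
  left_inv v := by
    show ((g⁻¹ : GL (Fin 2) k) : M2 k).mulVec ((g : M2 k).mulVec v) = v
    rw [Matrix.mulVec_mulVec, ← Units.val_mul, inv_mul_cancel, Units.val_one, Matrix.one_mulVec]
  right_inv v := by
    show (g : M2 k).mulVec (((g⁻¹ : GL (Fin 2) k) : M2 k).mulVec v) = v
    rw [Matrix.mulVec_mulVec, ← Units.val_mul, mul_inv_cancel, Units.val_one, Matrix.one_mulVec]
  map_add' := Matrix.mulVec_add _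

theorem flatRes_conj (g : GL (Fin 2) k) {r0 : GQ →* GL (Fin 2) k} (h : FlatRes p r0) :
    FlatRes p (conjRep g r0) := by
  obtain ⟨act, hact, hfl⟩ := h
  refine ⟨transAct (gEquiv g) act, fun σ v => ?_, isFlatMod_transAct _ hfl⟩
  rw [transAct_apply, hact]
  show (g : M2 k).mulVec ((r0 σ : M2 k).mulVec (((g⁻¹ : GL (Fin 2) k) : M2 k).mulVec v)) = _
  rw [Matrix.mulVec_mulVec, Matrix.mulVec_mulVec, conjRep_apply, Units.val_mul, Units.val_mul,
    Matrix.mul_assoc]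

theorem flatLift_conj (g : GL (Fin 2) k) {r0 : GQ →* GL (Fin 2) k} {c : GQ → Ad0 k}
    (h : FlatLift p r0 c) : FlatLift p (conjRep g r0) (conjCoc g c) := by
  obtain ⟨act, hact, hfl⟩ := h
  refine ⟨transAct (AddEquiv.prodCongr (gEquiv g) (gEquiv g)) act, fun σ v => ?_,
    isFlatMod_transAct _ hfl⟩
  rw [transAct_apply, hact]
  have hgg : ((g⁻¹ : GL (Fin 2) k) : M2 k) * (g : M2 k) = 1 := by
    rw [← Units.val_mul, inv_mul_cancel, Units.val_one]
  refine Prod.ext ?_ ?_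
  · show (g : M2 k).mulVec ((r0 σ : M2 k).mulVec (((g⁻¹ : GL (Fin 2) k) : M2 k).mulVec v.1)) = _
    rw [Matrix.mulVec_mulVec, Matrix.mulVec_mulVec, conjRep_apply, Units.val_mul, Units.val_mul,
      Matrix.mul_assoc]
  · show (g : M2 k).mulVec ((r0 σ : M2 k).mulVec (((g⁻¹ : GL (Fin 2) k) : M2 k).mulVec v.2) +
      ((c σ : M2 k) * (r0 σ : M2 k)).mulVec (((g⁻¹ : GL (Fin 2) k) : M2 k).mulVec v.1)) =
      ((conjRep g r0 σ : GL (Fin 2) k) : M2 k).mulVec v.2 +
        (((g : M2 k) * (c σ : M2 k) * ((g⁻¹ : GL (Fin 2) k) : M2 k)) *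
          ((conjRep g r0 σ : GL (Fin 2) k) : M2 k)).mulVec v.1
    rw [Matrix.mulVec_add, Matrix.mulVec_mulVec, Matrix.mulVec_mulVec, Matrix.mulVec_mulVec,
      Matrix.mulVec_mulVec, conjRep_apply, Units.val_mul, Units.val_mul]
    have e1 : (g : M2 k) * ((c σ : M2 k) * (r0 σ : M2 k) * ((g⁻¹ : GL (Fin 2) k) : M2 k)) =
        (g : M2 k) * (c σ : M2 k) * ((g⁻¹ : GL (Fin 2) k) : M2 k) *
          ((g : M2 k) * (r0 σ : M2 k) * ((g⁻¹ : GL (Fin 2) k) : M2 k)) := by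
      calc (g : M2 k) * ((c σ : M2 k) * (r0 σ : M2 k) * ((g⁻¹ : GL (Fin 2) k) : M2 k))
          = (g : M2 k) * (c σ : M2 k) * (1 : M2 k) * ((r0 σ : M2 k) * ((g⁻¹ : GL (Fin 2) k) : M2 k)) := by
            simp only [Matrix.mul_assoc, Matrix.one_mul]
        _ = _ := by
            rw [← hgg]
            simp only [Matrix.mul_assoc]
    rw [← e1, Matrix.mul_assoc (g : M2 k) ((c σ : M2 k) * (r0 σ : M2 k))]

theorem flatRes_of_rhoV (r0 : GQ →* GL (Fin 2) k) (h1 : ((r0 1 : GL (Fin 2) k) : M2 k) = 1)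
    (hmul : ∀ σ τ, ((r0 (σ * τ) : GL (Fin 2) k) : M2 k) = (r0 σ : M2 k) * (r0 τ : M2 k))
    (h : IsFlatMod p (Fin 2 → k) (rhoV (fun σ => (r0 σ : M2 k)) h1 hmul)) : FlatRes p r0 :=
  ⟨_, fun _ _ => rfl, h⟩

/-- `k[ε]² = k² × k²` -/
def dualEquiv (k : Type) [Field k] : (Fin 2 → DualNumber k) ≃+ K2 k × K2 k where
  toFun v := (fun i => (v i).fst, fun i => (v i).snd)
  invFun w := fun i => (w.1 i, w.2 i)
  left_inv _ := rfl
  right_inv _ := rfl
  map_add' _ _ := rfl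

theorem flatLift_of_rhoV (r0 : GQ →* GL (Fin 2) k) (c : GQ → Ad0 k) (h1 : liftMat r0 c 1 = 1)
    (hmul : ∀ σ τ, liftMat r0 c (σ * τ) = liftMat r0 c σ * liftMat r0 c τ)
    (h : IsFlatMod p (Fin 2 → DualNumber k) (rhoV (liftMat r0 c) h1 hmul)) : FlatLift p r0 c := by
  refine ⟨transAct (dualEquiv k) _, fun σ v => ?_, isFlatMod_transAct _ h⟩
  rw [transAct_apply]
  have e1 : ∀ w : Fin 2 → DualNumber k, rhoV (liftMat r0 c) h1 hmul σ w = (liftMat r0 c σ).mulVec w :=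
    fun _ => rfl
  rw [e1]
  refine Prod.ext ?_ ?_
  · funext i
    show ((liftMat r0 c σ).mulVec ((dualEquiv k).symm v) i).fst = _
    have e2 : ∀ j, ((dualEquiv k).symm v j).fst = v.1 j := fun _ => rfl
    simp only [Matrix.mulVec, dotProduct, Fin.sum_univ_two, TrivSqZeroExt.fst_add,
      TrivSqZeroExt.fst_mul, liftMat, Matrix.of_apply, TrivSqZeroExt.fst_inl, TrivSqZeroExt.fst_inr,
      add_zero, e2]
  · funext i
    show ((liftMat r0 c σ).mulVec ((dualEquiv k).symm v) i).snd = _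
    have e2 : ∀ j, ((dualEquiv k).symm v j).fst = v.1 j := fun _ => rfl
    have e3 : ∀ j, ((dualEquiv k).symm v j).snd = v.2 j := fun _ => rfl
    simp only [Matrix.mulVec, dotProduct, Fin.sum_univ_two, TrivSqZeroExt.snd_add,
      TrivSqZeroExt.snd_mul, TrivSqZeroExt.fst_add, liftMat, Matrix.of_apply, TrivSqZeroExt.fst_inl,
      TrivSqZeroExt.fst_inr, TrivSqZeroExt.snd_inl, TrivSqZeroExt.snd_inr, add_zero, zero_add, e2, e3,
      Pi.add_apply, smul_eq_mul, MulOpposite.smul_eq_mul_unop, MulOpposite.unop_op]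
    ring

theorem transport (g : GL (Fin 2) k) (r0 : GQ →* GL (Fin 2) k) (q : Nat.Primes)
    (L' : AddSubgroup (H1 (lvlD q) (adRhoD (conjRep g r0) q))) (hL' : Finite L') :
    ∃ L : AddSubgroup (H1 (lvlD q) (adRhoD r0 q)), Finite L ∧ Nat.card L ≤ Nat.card L' ∧
      ∀ c : ↥(Z1 lvlQ (adRho r0)),
        loc1 (adRho (conjRep g r0)) q (H1.mk lvlQ (adRho (conjRep g r0))
          ⟨conjCoc g c, conjCoc_mem g r0 c.2⟩) ∈ L' →
        loc1 (adRho r0) q (H1.mk lvlQ (adRho r0) c) ∈ L := by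
  have hΦ : IsHom (adRhoD r0 q) (adRhoD (conjRep g r0) q) (adOne g) :=
    fun σ X => adOne_conj g r0 σ X
  have hΨ : IsHom (adRhoD (conjRep g r0) q) (adRhoD r0 q) (adOne g⁻¹) :=
    fun σ X => adOne_conj' g r0 σ X
  set Φ := H1c (lvlD q) hΦ with hΦdef
  set Ψ := H1c (lvlD q) hΨ with hΨdef
  have hinv : Function.LeftInverse Ψ Φ := by
    intro x
    obtain ⟨f, rfl⟩ := H1.mk_surjective _ _ x
    refine congrArg (H1.mk _ _) (Subtype.ext ?_)
    funext σ
    exact adOne_inv_adOne g _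
  have hinj : Function.Injective (fun x : ↥(L'.comap Φ) => (⟨Φ x.1, x.2⟩ : ↥L')) := by
    intro x y hxy
    exact Subtype.ext (hinv.injective (congrArg Subtype.val hxy))
  refine ⟨L'.comap Φ, Finite.of_injective _ hinj, Nat.card_le_card_of_injective _ hinj, ?_⟩
  intro c hc
  exact hc

theorem card_H0_conj [Finite k] (g : GL (Fin 2) k) (r0 : GQ →* GL (Fin 2) k) (q : Nat.Primes) :
    Nat.card (H0 (adRhoD (conjRep g r0) q)) ≤ Nat.card (H0 (adRhoD r0 q)) := by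
  have hΨ : IsHom (adRhoD (conjRep g r0) q) (adRhoD r0 q) (adOne g⁻¹) :=
    fun σ X => adOne_conj' g r0 σ X
  refine Nat.card_le_card_of_injective (H0c hΨ) ?_
  intro x y hxy
  have h1 : adOne g⁻¹ x.1 = adOne g⁻¹ y.1 := congrArg Subtype.val hxy
  have h2 := congrArg (adOne g) h1
  rw [adOne_adOne_inv, adOne_adOne_inv] at h2
  exact Subtype.ext h2

end Fermat.Agent.S56.Flat.FR
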