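import Fermat.Agent.S56.Flat.FR.Tame
import Fermat.Agent.S56.Flat.FR.Trans
import Fermat.Agent.S56.Flat.FR.PR

/-!
# S56 / FLAT / FR : normal form of `ρbar | D`  (R1)-(R3), and (R5) for `ρbar`       keys `S56/FR-NF0` (nf0), `S56/FR-PRRES` (pr_res)

`nf0` : `ρbar` flat, `r0 (D)` stabilises a line ⟹ some conjugate `g r0 g⁻¹` is in normal form `UT`.
PROOF. (a) choose `g₁` with `g₁ v = e₁` : `r₁ := g₁ r0 g₁⁻¹` is upper triangular on `D`: `r₁ σ = [[χ₁, β], [0, χ₂]]`; `χ₁, χ₂ : D → kˣ` are characters (diagonal entries of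
 upper triangular invertible matrices), trivial on an open subgroup (`IsSm`).  `tame` : `χᵢ σ ^ p = χᵢ σ` on `I`, so `χᵢ σ = (κᵢ σ : k)`, `κᵢ σ : ZMod p` (`Subfield.mem_bot_iff_pow_eq_self`, or `ZMod`-cast lemma).
 (b) `OTp` for `V = K2 k`, `g = e₁`, `κ = κ₁` (`flatRes_conj`; `p • v = 0` from `CharP k p`): `κ₁ = 1` on `I` or `κ₁ = χ` on `I`.  `det = χ₁ χ₂ = ω` (`IsCycDet`, invariant under conjugation).
 (c) if `κ₁ = χ` : `χ₂ = 1` on `I` : `UT p r₁`.
 (d) if `κ₁ = 1` : `χ₂ = ω` on `I`.  `σ₀ ∈ I` with `ω σ₀ ≠ 1` (`S33.exists_moves`, `hp2`).  `v' := (r₁ σ₀ - 1) e₂ = (β σ₀, ω σ₀ - 1) ∈ Aug ⊤`.  `CEp` with `U = k e₁` (`Aug U = 0`): `k e₁ ∩ Aug ⊤ = 0`.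
     `Aug ⊤` is stable under `k` and under `D` (`I` normal in `D`).  For `τ ∈ D`: `r₁ τ v' ∈ Aug ⊤`, `r₁ τ v' - χ₂(τ) v' ∈ k e₁ ∩ Aug ⊤ = 0`.  So `v'` is an eigenvector of `D` with character `χ₂`;
     basis `(v', e₁)`: `g₂ := [v' | e₁]⁻¹`, `g₂ r₁ g₂⁻¹ = diag (χ₂, χ₁)` on `D`: `UT`.
`pr_res` : `TRp` for `V = K2 k`, `g = e₂`, `ℓ v = l (v 0)`: `r σ e₂ - e₂ = (β σ, 0)` for `σ ∈ I`, on which `τ ∈ I` acts by `ω τ`.
-/

set_option autoImplicit false

noncomputable section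

namespace Fermat.Agent.S56.Flat.FR

open Fermat.Agent.S53 (M2)
open Fermat.Agent.S55 Fermat.Agent.S55.B Fermat.Agent.S05 ExtCitation Fermat.Agent.S56

variable {p : ℕ} [Fact p.Prime] {k : Type} [Field k]

/-- the determinant form on `k²` -/
def dd (x y : K2 k) : k := x 0 * y 1 - x 1 * y 0

theorem dd_mulVec (A : M2 k) (x y : K2 k) : dd (A.mulVec x) (A.mulVec y) = A.det * dd x y := by
  simp only [dd, Matrix.mulVec, dotProduct, Fin.sum_univ_two, Matrix.det_fin_two]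
  ring

theorem nfAux_ne {v : K2 k} (hv : v ≠ 0) (h0 : v 0 = 0) : v 1 ≠ 0 := by
  intro h1
  apply hv
  funext i
  fin_cases i
  · exact h0
  · exact h1

theorem exists_dd_ne {v : K2 k} (hv : v ≠ 0) : ∃ w, dd v w ≠ 0 := by
  by_cases h0 : v 0 = 0
  · exact ⟨![1, 0], by simpa [dd] using nfAux_ne hv h0⟩
  · exact ⟨![0, 1], by simpa [dd] using h0⟩

theorem eq_smul_of_dd {v x : K2 k} (hv : v ≠ 0) (h : dd v x = 0) : ∃ c : k, x = c • v := by
  unfold dd at h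
  by_cases h0 : v 0 = 0
  · have h1 := nfAux_ne hv h0
    refine ⟨x 1 / v 1, ?_⟩
    funext i
    fin_cases i
    · show x 0 = x 1 / v 1 * v 0
      rw [h0, mul_zero]
      rw [h0, zero_mul, zero_sub, neg_eq_zero] at h
      exact (mul_eq_zero.1 h).resolve_left h1
    · show x 1 = x 1 / v 1 * v 1
      rw [div_mul_cancel₀ _ h1]
  · refine ⟨x 0 / v 0, ?_⟩
    funext i
    fin_cases i
    · show x 0 = x 0 / v 0 * v 0
      rw [div_mul_cancel₀ _ h0]
    · show x 1 = x 0 / v 0 * v 1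
      field_simp
      linear_combination h

theorem om_ne_zero {r0 : GQ →* GL (Fin 2) k} (hdet : IsCycDet p r0) (σ : GQ) : (om p σ : k) ≠ 0 := by
  have h1 : (r0 σ : M2 k).det = om p σ := hdet σ
  rw [← h1]
  exact ((Matrix.isUnit_iff_isUnit_det _).1 (r0 σ).isUnit).ne_zero

/-- an eigenvector of `D` on which `I` acts through `ω` gives the normal form -/
theorem ut_of_eigen (r0 : GQ →* GL (Fin 2) k) (hdet : IsCycDet p r0) {v : K2 k} (hv : v ≠ 0)
    (hD : ∀ σ ∈ Dp p, ∃ a : k, (r0 σ : M2 k).mulVec v = a • v)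
    (hI : ∀ σ ∈ Ip p, (r0 σ : M2 k).mulVec v = (om p σ : k) • v) :
    ∃ g : GL (Fin 2) k, UT p (conjRep g r0) := by
  obtain ⟨w, hw⟩ := exists_dd_ne hv
  set P : M2 k := !![v 0, w 0; v 1, w 1] with hPdef
  have hP : P.det ≠ 0 := by
    rw [hPdef, Matrix.det_fin_two_of, mul_comm (w 0)]; exact hw
  set G : GL (Fin 2) k := Matrix.GeneralLinearGroup.mkOfDetNeZero P hP with hG
  have hrel : ∀ σ, P * (conjRep G⁻¹ r0 σ : M2 k) = (r0 σ : M2 k) * P := by
    intro σ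
    have h1 : G * conjRep G⁻¹ r0 σ = r0 σ * G := by rw [conjRep_apply, inv_inv]; group
    exact congrArg (fun x : GL (Fin 2) k => (x : M2 k)) h1
  have key : ∀ σ a, (r0 σ : M2 k).mulVec v = a • v →
      (conjRep G⁻¹ r0 σ : M2 k) 1 0 = 0 ∧ (conjRep G⁻¹ r0 σ : M2 k) 0 0 = a := by
    intro σ a h
    have h2 := hrel σ
    set R := (conjRep G⁻¹ r0 σ : M2 k) with hR
    have e0 := congrFun (congrFun h2 0) 0
    have e1 := congrFun (congrFun h2 1) 0
    have f0 := congrFun h 0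
    have f1 := congrFun h 1
    simp only [Matrix.mul_apply, Fin.sum_univ_two, hPdef, Matrix.mulVec, dotProduct, Matrix.of_apply,
      Matrix.cons_val_zero, Matrix.cons_val_one, Matrix.cons_val', Matrix.cons_val_fin_one,
      Pi.smul_apply, smul_eq_mul] at e0 e1 f0 f1
    unfold dd at hw
    constructor
    · refine (mul_eq_zero.1 (?_ : (v 0 * w 1 - v 1 * w 0) * R 1 0 = 0)).resolve_left hw
      linear_combination (v 0) * (e1 + f1) - (v 1) * (e0 + f0)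
    · refine sub_eq_zero.1 ((mul_eq_zero.1
        (?_ : (v 0 * w 1 - v 1 * w 0) * (R 0 0 - a) = 0)).resolve_left hw)
      linear_combination (w 1) * (e0 + f0) - (w 0) * (e1 + f1)
  refine ⟨G⁻¹, ⟨fun σ hσ => ?_, fun σ hσ => (key σ _ (hI σ hσ)).2, fun σ hσ => ?_⟩⟩
  · obtain ⟨a, ha⟩ := hD σ hσ
    exact (key σ a ha).1
  · obtain ⟨h1, h2⟩ := key σ _ (hI σ hσ)
    have h3 := congrArg Matrix.det (hrel σ)
    rw [Matrix.det_mul, Matrix.det_mul, mul_comm] at h3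
    have h4 := mul_right_cancel₀ hP h3
    rw [Matrix.det_fin_two, h1, h2, mul_zero, sub_zero] at h4
    have h5 : (r0 σ : M2 k).det = om p σ := hdet σ
    rw [h5] at h4
    exact mul_left_cancel₀ (om_ne_zero hdet σ) (by rw [h4, mul_one])

theorem nfAux_zmod [CharP k p] {x : k} (h : x ^ p = x) : ∃ n : ZMod p, x = ((n.val : ℕ) : k) := by
  have h2 := (Subfield.mem_bot_iff_pow_eq_self k p).2 h
  rw [← ZMod.fieldRange_castHom_eq_bot p] at h2
  obtain ⟨i, hi⟩ := h2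
  refine ⟨i, ?_⟩
  rw [← hi, ZMod.castHom_apply, ZMod.natCast_val]

theorem nf0 [Finite k] [CharP k p] (hCE : CEp p) (hOT : OTp p) (hp2 : p ≠ 2) (r0 : GQ →* GL (Fin 2) k)
    (hsm : IsSm r0) (hdet : IsCycDet p r0)
    (hred : ∃ v : K2 k, v ≠ 0 ∧ ∀ σ ∈ Dp p, ∃ a : k, (r0 σ : M2 k).mulVec v = a • v)
    (hfl : FlatRes p r0) : ∃ g : GL (Fin 2) k, UT p (conjRep g r0) := by
  obtain ⟨v, hv, hvD⟩ := hred
  obtain ⟨act, hact, hflat⟩ := hfl
  have hpV : ∀ x : K2 k, p • x = 0 := by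
    intro x
    funext i
    simp [CharP.cast_eq_zero]
  obtain ⟨i, hi⟩ : ∃ i, v i ≠ 0 := by
    by_contra h
    push Not at h
    exact hv (funext h)
  have hinj : ∀ c c' : k, c • v = c' • v → c = c' := by
    intro c c' h
    exact mul_right_cancel₀ hi (congrFun h i)
  choose! a ha using hvD
  -- the character `χ₁`
  let f : ↥(Dp p) →* k :=
    { toFun := fun σ => a σ
      map_one' := by
        apply hinj
        rw [← ha _ (1 : ↥(Dp p)).2, one_smul]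
        show ((r0 1 : GL (Fin 2) k) : M2 k).mulVec v = v
        rw [map_one, Units.val_one, Matrix.one_mulVec]
      map_mul' := by
        intro σ τ
        apply hinj
        rw [← ha _ (σ * τ).2]
        show ((r0 ((σ : GQ) * (τ : GQ)) : GL (Fin 2) k) : M2 k).mulVec v = _
        rw [map_mul, Units.val_mul, ← Matrix.mulVec_mulVec, ha _ τ.2, Matrix.mulVec_smul, ha _ σ.2,
          smul_smul, mul_comm] }
  have hη : ∃ U ∈ (lvlD (pPrime p)).sets, ∀ u ∈ U, f.toHomUnits u = 1 := by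
    obtain ⟨U0, hU0, hU⟩ := hsm
    refine ⟨_, ⟨U0, hU0, rfl⟩, fun u hu => Units.ext ?_⟩
    rw [MonoidHom.coe_toHomUnits, Units.val_one]
    apply hinj
    show a u • v = _
    have hu' : r0 (u : GQ) = 1 := hU _ hu
    rw [← ha _ u.2, one_smul, hu', Units.val_one, Matrix.one_mulVec]
  have hκ : ∀ σ : GQ, ∃ n : ZMod p, σ ∈ Ip p → a σ = ((n.val : ℕ) : k) := by
    intro σ
    by_cases hσ : σ ∈ Ip p
    · have h1 := tame f.toHomUnits hη ⟨σ, hσ⟩
      rw [MonoidHom.coe_toHomUnits] at h1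
      obtain ⟨n, hn⟩ := nfAux_zmod (p := p) h1
      exact ⟨n, fun _ => hn⟩
    · exact ⟨0, fun h => absurd h hσ⟩
  choose κ hκ using hκ
  have hactv : ∀ σ ∈ Ip p, act σ v = (κ σ).val • v := by
    intro σ hσ
    rw [hact, ha σ (Ip_le_Dp p hσ), hκ σ hσ, Nat.cast_smul_eq_nsmul]
  rcases hOT _ act hflat hpV v κ hv hactv with h1 | h1
  swap
  · -- `κ = χ`
    refine ut_of_eigen r0 hdet hv (fun σ hσ => ⟨a σ, ha σ hσ⟩) fun σ hσ => ?_
    rw [ha σ (Ip_le_Dp p hσ), hκ σ hσ, h1 σ hσ]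
    rfl
  -- `κ = 1`
  have : Fact (1 < p) := ⟨(Fact.out : p.Prime).one_lt⟩
  have hfix : ∀ σ ∈ Ip p, (r0 σ : M2 k).mulVec v = v := by
    intro σ hσ
    rw [← hact, hactv σ hσ, h1 σ hσ, ZMod.val_one, one_smul]
  obtain ⟨w, hw⟩ := exists_dd_ne hv
  -- `σ₀`
  obtain ⟨σ₀, hσ₀, hom⟩ : ∃ σ₀ ∈ Ip p, (om p σ₀ : k) ≠ 1 := by
    obtain ⟨σ₀, hσ₀, ζ, hζ, hne⟩ := Fermat.Agent.S33.exists_moves (pPrime p) hp2
    refine ⟨σ₀, hσ₀, fun h => hne ?_⟩
    have h2 : ((omN p σ₀ : ℕ) : k) = ((1 : ℕ) : k) := by rw [Nat.cast_one]; exact h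
    rw [CharP.natCast_eq_natCast k p] at h2
    have h3 : omN p σ₀ = 1 := by
      have h4 : omN p σ₀ < p := ZMod.val_lt _
      have h5 := Nat.ModEq.eq_of_lt_of_lt h2 h4 (Fact.out : 1 < p)
      exact h5
    have h6 := E.cycloChar_spec p σ₀ hζ
    have h7 : ((cycloChar p σ₀ : (ZMod p)ˣ) : ZMod p).val = 1 := h3
    rw [h7, pow_one] at h6
    exact h6
  set v' : K2 k := act σ₀ w - w with hv'
  have hv'A : v' ∈ Aug p act ⊤ := AddSubgroup.subset_closure ⟨σ₀, hσ₀, w, trivial, rfl⟩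
  have hdv' : dd v v' ≠ 0 := by
    have h2 : dd v v' = (om p σ₀ - 1) * dd v w := by
      have h3 := dd_mulVec (r0 σ₀ : M2 k) v w
      rw [hfix σ₀ hσ₀] at h3
      have h4 : (r0 σ₀ : M2 k).det = om p σ₀ := hdet σ₀
      rw [h4] at h3
      rw [hv', hact, sub_mul, one_mul, ← h3]
      simp only [dd, Pi.sub_apply]
      ring
    rw [h2]
    exact mul_ne_zero (sub_ne_zero.2 hom) hw
  have hv'0 : v' ≠ 0 := by
    intro h
    rw [h] at hdv'
    exact hdv' (by simp [dd])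
  -- stability of `Aug ⊤`
  have hAk : ∀ (c : k), ∀ x ∈ Aug p act ⊤, c • x ∈ Aug p act ⊤ := by
    intro c x hx
    induction hx using AddSubgroup.closure_induction with
    | mem x hx =>
      obtain ⟨σ, hσ, u, -, rfl⟩ := hx
      refine AddSubgroup.subset_closure ⟨σ, hσ, c • u, trivial, ?_⟩
      rw [hact, hact, Matrix.mulVec_smul, smul_sub]
    | zero => rw [smul_zero]; exact zero_mem _
    | add x y _ _ hx hy => rw [smul_add]; exact add_mem hx hy
    | neg x _ hx => rw [smul_neg]; exact neg_mem hx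
  have hAD : ∀ τ ∈ Dp p, ∀ x ∈ Aug p act ⊤, act τ x ∈ Aug p act ⊤ := by
    intro τ hτ x hx
    induction hx using AddSubgroup.closure_induction with
    | mem x hx =>
      obtain ⟨σ, hσ, u, -, rfl⟩ := hx
      have h2 : τ * σ * τ⁻¹ ∈ Ip p := by
        have := conj_mem_Ip ((Dp p).inv_mem hτ) ⟨σ, hσ⟩
        rwa [inv_inv] at this
      refine AddSubgroup.subset_closure ⟨τ * σ * τ⁻¹, h2, act τ u, trivial, ?_⟩
      rw [map_sub]
      congr 1
      have h3 : act (τ * σ * τ⁻¹) (act τ u) = act (τ * σ * τ⁻¹ * τ) u := by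
        rw [map_mul act (τ * σ * τ⁻¹) τ]; rfl
      rw [h3, inv_mul_cancel_right, map_mul]
      rfl
    | zero => rw [map_zero]; exact zero_mem _
    | add x y _ _ hx hy => rw [map_add]; exact add_mem hx hy
    | neg x _ hx => rw [map_neg]; exact neg_mem hx
  -- `k v ∩ Aug ⊤ = 0`
  set U : AddSubgroup (K2 k) := (Submodule.span k {v}).toAddSubgroup with hU
  have hUmem : ∀ x, x ∈ U ↔ ∃ c : k, c • v = x := fun x => Submodule.mem_span_singleton
  have hUfix : ∀ σ ∈ Ip p, ∀ u ∈ U, act σ u = u := by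
    intro σ hσ u hu
    obtain ⟨c, rfl⟩ := (hUmem u).1 hu
    rw [hact, Matrix.mulVec_smul, hfix σ hσ]
  have hAU : Aug p act U ≤ ⊥ := by
    refine (AddSubgroup.closure_le _).2 ?_
    rintro _ ⟨σ, hσ, u, hu, rfl⟩
    rw [hUfix σ hσ u hu, sub_self]
    exact zero_mem _
  have hcap : ∀ x ∈ U, x ∈ Aug p act ⊤ → x = 0 := by
    intro x hx hx'
    have := hAU (hCE _ act hflat hpV U (fun σ hσ u hu => by rw [hUfix σ hσ u hu]; exact hu) ⟨hx, hx'⟩)
    exact (AddSubgroup.mem_bot).1 this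
  -- `v'` is an eigenvector
  have heig : ∀ τ ∈ Dp p, (r0 τ : M2 k).mulVec v' = (dd v ((r0 τ : M2 k).mulVec v') / dd v v') • v' := by
    intro τ hτ
    set c := dd v ((r0 τ : M2 k).mulVec v') / dd v v' with hc
    have h2 : dd v ((r0 τ : M2 k).mulVec v' - c • v') = 0 := by
      have h3 : dd v ((r0 τ : M2 k).mulVec v' - c • v') = dd v ((r0 τ : M2 k).mulVec v') - c * dd v v' := by
        simp only [dd, Pi.sub_apply, Pi.smul_apply, smul_eq_mul]
        ring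
      rw [h3, hc, div_mul_cancel₀ _ hdv', sub_self]
    obtain ⟨e, he⟩ := eq_smul_of_dd hv h2
    have h4 : (r0 τ : M2 k).mulVec v' - c • v' ∈ Aug p act ⊤ := by
      refine sub_mem ?_ (hAk c _ hv'A)
      rw [← hact]
      exact hAD τ hτ _ hv'A
    exact sub_eq_zero.1 (hcap _ ((hUmem _).2 ⟨e, he.symm⟩) h4)
  refine ut_of_eigen r0 hdet hv'0 (fun τ hτ => ⟨_, heig τ hτ⟩) fun τ hτ => ?_
  rw [heig τ (Ip_le_Dp p hτ)]
  congr 1
  have h3 := dd_mulVec (r0 τ : M2 k) v v'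
  rw [hfix τ hτ] at h3
  have h4 : (r0 τ : M2 k).det = om p τ := hdet τ
  rw [h3, h4, mul_div_cancel_right₀ _ hdv']

theorem pr_res [CharP k p] (hTR : TRp p) {ζ : Qb} (hζ : IsPrimitiveRoot ζ p) (r : GQ →* GL (Fin 2) k)
    (hUT : UT p r) (hfl : FlatRes p r) (l : k →+ ZMod p) :
    PR1 p ζ (fun σ => l ((r (σ : GQ) : M2 k) 0 1)) := by
  obtain ⟨act, hact, hflat⟩ := hfl
  have hpV : ∀ x : K2 k, p • x = 0 := by
    intro x
    funext i
    simp [CharP.cast_eq_zero]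
  have hform : ∀ σ ∈ Ip p, act σ ![0, 1] - ![0, 1] = ![(r σ : M2 k) 0 1, 0] := by
    intro σ hσ
    rw [hact]
    funext i
    fin_cases i
    · simp [Matrix.mulVec, dotProduct, Fin.sum_univ_two]
    · simp [Matrix.mulVec, dotProduct, Fin.sum_univ_two, hUT.one σ hσ]
  have h1 := hTR _ act hflat hpV ζ hζ ![0, 1] (l.comp (Pi.evalAddMonoidHom (fun _ : Fin 2 => k) 0))
    (fun σ hσ τ hτ => by
      rw [hform σ hσ, hact]
      funext i
      fin_cases i
      · simp [Matrix.mulVec, dotProduct, Fin.sum_univ_two, hUT.om τ hτ, om]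
      · simp [Matrix.mulVec, dotProduct, Fin.sum_univ_two, hUT.low τ (Ip_le_Dp p hτ)])
  refine h1.congr fun σ => ?_
  rw [hform σ σ.2]
  rfl

end Fermat.Agent.S56.Flat.FR
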