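import Fermat.Agent.S56.Flat.FR.Defs
import Fermat.Agent.S55.T.H90
import Fermat.Agent.S55.T.Inst
import Fermat.Agent.S55.B.Cpt
import Fermat.Agent.S56.Flat.FR.Kum

/-!
# S56 / FLAT / FR : smooth characters of `D` are `𝔽_p`-valued on inertia  (TAME)       key `S56/FR-TAME`

`η : D → kˣ` a character trivial on an open subgroup, `k` a finite field of characteristic `p`.  Then `η σ ^ p = η σ` for `σ ∈ I`.

PROOF (no structure theory of tame inertia).  `m := #k - 1` (prime to `p`), `ι : kˣ ≃* rootsOfUnity m Qb` (both cyclic of order `m`: `mulEquivOfCyclicCardEq`).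
 (1) roots of unity of order prime to `p` are fixed by `I` (`apply_root_of_mem_Iq`).  So `σ ↦ ι (η σ)` is a 1-cocycle `I → Qbˣ`, level constant.  HILBERT 90 = `S55.T.key` for `G = ↥(Ip p)`,
     `𝓛 = lvlQ.comap (Ip p).subtype`, `α = alQ.comp (Ip p).subtype` (`galAct_Q.comap _`), `Sg = Unit`, `π = 1`: `∃ y ≠ 0, σ y = ι (η σ)^{±1} y` for all `σ ∈ I`.
 (2) `φ ∈ D` with `φ ξ = ξ ^ p` for all roots of unity of order prime to `p` (`exists_frobAll`).  For `σ ∈ I`, `σ' := φ σ φ⁻¹ ∈ I`, `y' := φ y`: `σ' y' = φ (ι (η σ)) y' = ι (η σ)^p y'`, and `σ' y = ι (η σ') y`.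
     `u := y' / y` has `v u = 0` (`pres_Dq`), so `v (σ' u - u) > 0` (`GT_of_mem_Iq`), i.e. `v ((ι (η σ)^p / ι (η σ') - 1) u) > 0`: the root of unity `ι (η σ)^p / ι (η σ')` of order prime to `p` is `≡ 1`,
     hence `= 1` (`D.root_eq_of_sub_mem` / `frobAux_incongr` / `exists_root_congr` API of `S55/B/Cpt`).  So `η σ' = η σ ^ p`.
 (3) `η σ' = η φ * η σ * (η φ)⁻¹ = η σ` (`kˣ` commutative).
-/

set_option autoImplicit false

noncomputable section

namespace Fermat.Agent.S56.Flat.FR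

open Fermat.Agent.S55 Fermat.Agent.S55.B Fermat.Agent.S05 ExtCitation Fermat.Agent.S56

variable {p : ℕ} [Fact p.Prime] {k : Type} [Field k]

theorem tameAux_not_dvd [Finite k] [CharP k p] : ¬ p ∣ Nat.card kˣ := by
  classical
  have := Fintype.ofFinite k
  rw [Nat.card_eq_fintype_card, Fintype.card_units]
  obtain ⟨n, -, hn⟩ := FiniteField.card k p
  rw [hn]
  intro h
  have h1 : p ∣ p ^ (n : ℕ) := dvd_pow_self p n.ne_zero
  have h2 := Nat.dvd_sub h1 h
  rw [Nat.sub_sub_self (Nat.one_le_pow _ _ (Fact.out : p.Prime).pos)] at h2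
  exact (Fact.out : p.Prime).one_lt.ne' (Nat.dvd_one.1 h2)

/-- an injective character `kˣ → Qb` -/
theorem tameAux_exists_emb [Finite k] : ∃ J : kˣ →* Qb, Function.Injective J ∧
    ∀ a, J a ^ Nat.card kˣ = 1 := by
  have hm : NeZero (Nat.card kˣ) := ⟨Nat.card_pos.ne'⟩
  have hc : Nat.card kˣ = Nat.card (rootsOfUnity (Nat.card kˣ) Qb) :=
    (HasEnoughRootsOfUnity.natCard_rootsOfUnity Qb (Nat.card kˣ)).symm
  let ι := mulEquivOfCyclicCardEq hc
  refine ⟨(Units.coeHom Qb).comp ((rootsOfUnity (Nat.card kˣ) Qb).subtype.comp ι.toMonoidHom),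
    ?_, fun a => ?_⟩
  · intro a b hab
    exact ι.injective (Subtype.ext (Units.ext hab))
  · have h1 := (ι a).2
    rw [mem_rootsOfUnity] at h1
    have h2 := congrArg (fun u : Qbˣ => (u : Qb)) h1
    simpa using h2

theorem tame [Finite k] [CharP k p] (η : ↥(Dp p) →* kˣ)
    (hη : ∃ U ∈ (lvlD (pPrime p)).sets, ∀ u ∈ U, η u = 1) (σ : ↥(Ip p)) :
    (η (iD p σ) : k) ^ p = η (iD p σ) := by
  classical
  set m := Nat.card kˣ with hm
  have hpm : ¬ ((pPrime p : Nat.Primes) : ℕ) ∣ m := tameAux_not_dvd (p := p) (k := k)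
  have hm0 : 0 < m := Nat.card_pos
  obtain ⟨J, hJinj, hJm⟩ := tameAux_exists_emb (k := k)
  have hJ0 : ∀ a, J a ≠ 0 := by
    intro a h
    have := hJm a
    rw [h, zero_pow hm0.ne'] at this
    exact zero_ne_one this
  obtain ⟨_, ⟨U0, hU0, rfl⟩, hU⟩ := hη
  -- Hilbert 90 on inertia
  have hGal : T.GalAct (lvlQ.comap (Ip p).subtype) (T.alQ.comp (Ip p).subtype) := T.galAct_Q.comap _
  obtain ⟨b, hb0, hb⟩ := T.H90Aux.key hGal (Sg := Unit) 1 (U0.comap (Ip p).subtype) ⟨U0, hU0, rfl⟩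
    (fun _ _ => rfl) (fun g _ => J (η (iD p g))) (fun g _ => hJ0 _)
    (fun g u hu => by
      funext _
      have h1 : iD p (g * u) = iD p g * iD p u := rfl
      have h2 : η (iD p u) = 1 := hU _ hu
      rw [h1, map_mul, h2, mul_one])
    (fun g h _ => by
      have h1 : iD p (g * h) = iD p g * iD p h := rfl
      have h2 : (T.alQ.comp (Ip p).subtype) g (J (η (iD p h))) = J (η (iD p h)) :=
        apply_root_of_mem_Iq (pPrime p) g.2 hpm (hJm _)
      rw [h2, h1, map_mul, map_mul, mul_comm])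
  set y := b () with hy
  have hy0 : y ≠ 0 := hb0 ()
  have hyσ : ∀ g : ↥(Ip p), J (η (iD p g)) * (g : GQ) y = y := fun g => hb g ()
  -- Frobenius
  obtain ⟨φ, hφ, hφr⟩ := exists_frobAll (pPrime p)
  have hφ' : φ⁻¹ ∈ Dp p := (Dp p).inv_mem hφ
  have hσ' : φ * (σ : GQ) * φ⁻¹ ∈ Ip p := by
    have := conj_mem_Ip hφ' σ
    rwa [inv_inv] at this
  set σ' : ↥(Ip p) := ⟨φ * (σ : GQ) * φ⁻¹, hσ'⟩ with hσ'def
  have h1 : J (η (iD p σ)) ^ p * (σ' : GQ) (φ y) = φ y := by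
    have h2 := congrArg φ (hyσ σ)
    rw [map_mul, hφr m _ hpm (hJm _)] at h2
    have h3 : (σ' : GQ) (φ y) = φ ((σ : GQ) y) := by
      have : (φ * (σ : GQ) * φ⁻¹ * φ) y = (φ * (σ : GQ)) y := by
        rw [inv_mul_cancel_right]
      exact this
    rw [h3]
    exact h2
  have h2 := hyσ σ'
  -- `u = φ y / y`
  have hφy0 : φ y ≠ 0 := fun h => hy0 ((map_eq_zero φ).1 h)
  have hu : (vp p).EQ (φ y / y) 0 := by
    have h3 : (vp p).EQ y ((vp p).w y) := RVal.EQ_self hy0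
    have h4 := ((pres_Dq (pPrime p)).EQ hφ h3).div h3
    rwa [sub_self] at h4
  have h5 := GT_of_mem_Iq (pPrime p) σ'.2 (hu.GE le_rfl)
  set A := J (η (iD p σ)) ^ p with hA
  set B := J (η (iD p σ')) with hB
  have hA0 : A ≠ 0 := pow_ne_zero _ (hJ0 _)
  have hB0 : B ≠ 0 := hJ0 _
  have hAm : A ^ m = 1 := by rw [hA, ← pow_mul, mul_comm, pow_mul, hJm, one_pow]
  have hBm : B ^ m = 1 := hJm _
  have hs1 : (σ' : GQ) (φ y) = φ y / A := by rw [eq_div_iff hA0, mul_comm]; exact h1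
  have hs2 : (σ' : GQ) y = y / B := by rw [eq_div_iff hB0, mul_comm]; exact h2
  have e : (σ' : GQ) (φ y / y) - φ y / y = (B - A) * (φ y / y * A⁻¹) := by
    rw [map_div₀, hs1, hs2]
    field_simp
  rw [e] at h5
  have hAE : (vp p).EQ A 0 := w_eq_zero_of_pow_eq_one hm0 hAm
  have h6 : (vp p).EQ (φ y / y * A⁻¹) 0 := by simpa using hu.mul hAE.inv
  have h7 : (vp p).GT (B - A) 0 := by
    have := RVal.GT.of_mul_eq_left rfl h6 h5
    simpa using this
  have h8 : B = A := eq_of_pow_eq_one hm0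
    (w_natCast_eq_zero (pPrime p).2 (inerAux_wq_pos (pPrime p)) hpm) hBm hAm h7
  have h9 : η (iD p σ') = η (iD p σ) ^ p := by
    apply hJinj
    rw [map_pow]
    exact h8
  have h10 : iD p σ' = ⟨φ, hφ⟩ * iD p σ * ⟨φ, hφ⟩⁻¹ := rfl
  rw [h10, map_mul, map_mul, map_inv, mul_comm, inv_mul_cancel_left] at h9
  have := congrArg (fun u : kˣ => (u : k)) h9
  simpa using this.symm

end Fermat.Agent.S56.Flat.FR
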